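/-
S55 / cohomology toolbox (helper60): Mathlib's abstract `groupCohomology A 3` versus explicit
3-cocycles.

Mathlib has explicit low-degree descriptions of `H⁰, H¹, H²` but none of `H³`.  We define the
explicit differential `d₃₄ : Fun(G³, A) → Fun(G⁴, A)`, compare it with the differential of
`inhomogeneousCochains A`, and prove

  `IsZero (groupCohomology A 3) ↔ ∀ f : G × G × G → A, d₃₄ f = 0 → ∃ b : G × G → A, d₂₃ b = f`.

Mathlib only.
-/
import Mathlib

set_option autoImplicit false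

open CategoryTheory groupCohomology

namespace Fermat.Agent.S55.Coh.H3Explicit

universe u

variable {k G : Type u} [CommRing k] [Group G] (A : Rep.{u} k G)

/-- The third differential `Fun(G³, A) → Fun(G⁴, A)` of inhomogeneous cochains:
`(d f)(g₁,g₂,g₃,g₄) = g₁ f(g₂,g₃,g₄) - f(g₁g₂,g₃,g₄) + f(g₁,g₂g₃,g₄) - f(g₁,g₂,g₃g₄) + f(g₁,g₂,g₃)`. -/
def d₃₄ : (G × G × G → A) →ₗ[k] (G × G × G × G → A) where
  toFun f g := A.ρ g.1 (f (g.2.1, g.2.2.1, g.2.2.2)) - f (g.1 * g.2.1, g.2.2.1, g.2.2.2)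
    + f (g.1, g.2.1 * g.2.2.1, g.2.2.2) - f (g.1, g.2.1, g.2.2.1 * g.2.2.2) + f (g.1, g.2.1, g.2.2.1)
  map_add' x y := funext fun g => by
    simp only [Pi.add_apply, map_add]
    abel
  map_smul' c x := funext fun g => by
    simp only [Pi.smul_apply, map_smul, RingHom.id_apply, smul_add, smul_sub]

@[simp] lemma d₃₄_apply (f : G × G × G → A) (g₁ g₂ g₃ g₄ : G) :
    d₃₄ A f (g₁, g₂, g₃, g₄) = A.ρ g₁ (f (g₂, g₃, g₄)) - f (g₁ * g₂, g₃, g₄)
      + f (g₁, g₂ * g₃, g₄) - f (g₁, g₂, g₃ * g₄) + f (g₁, g₂, g₃) := rfl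

/-- An explicit `3`-cochain as an inhomogeneous cochain of Mathlib. -/
def to₃ (f : G × G × G → A) : (Fin 3 → G) → A := fun g => f (g 0, g 1, g 2)

/-- An explicit `4`-cochain as an inhomogeneous cochain of Mathlib. -/
def to₄ (f : G × G × G × G → A) : (Fin 4 → G) → A := fun g => f (g 0, g 1, g 2, g 3)

/-- An inhomogeneous `3`-cochain of Mathlib as an explicit cochain. -/
def of₃ (f : (Fin 3 → G) → A) : G × G × G → A := fun p => f ![p.1, p.2.1, p.2.2]

/-- An inhomogeneous `2`-cochain of Mathlib as an explicit cochain. -/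
def of₂ (f : (Fin 2 → G) → A) : G × G → A := fun p => f ![p.1, p.2]

/-- An explicit `2`-cochain as an inhomogeneous cochain of Mathlib. -/
def to₂ (f : G × G → A) : (Fin 2 → G) → A := fun g => f (g 0, g 1)

lemma to₃_of₃ (f : (Fin 3 → G) → A) : to₃ A (of₃ A f) = f := by
  funext g
  unfold to₃ of₃
  congr 1
  funext i
  fin_cases i <;> rfl

lemma of₃_to₃ (f : G × G × G → A) : of₃ A (to₃ A f) = f := by
  funext ⟨a, b, c⟩
  rfl

lemma to₂_of₂ (f : (Fin 2 → G) → A) : to₂ A (of₂ A f) = f := by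
  funext g
  unfold to₂ of₂
  congr 1
  funext i
  fin_cases i <;> rfl

/-- The Mathlib differential in degree `3` is the explicit `d₃₄`. -/
theorem d_to₃ (f : G × G × G → A) :
    (inhomogeneousCochains.d A 3).hom (to₃ A f) = to₄ A (d₃₄ A f) := by
  funext g
  rw [inhomogeneousCochains.d_hom_apply]
  rw [Fin.sum_univ_four]
  simp only [to₃, to₄, d₃₄_apply]
  have h00 : Fin.contractNth (0 : Fin 4) (· * ·) g (0 : Fin 3) = g 0 * g 1 := rfl
  have h01 : Fin.contractNth (0 : Fin 4) (· * ·) g (1 : Fin 3) = g 2 := rfl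
  have h02 : Fin.contractNth (0 : Fin 4) (· * ·) g (2 : Fin 3) = g 3 := rfl
  have h10 : Fin.contractNth (1 : Fin 4) (· * ·) g (0 : Fin 3) = g 0 := rfl
  have h11 : Fin.contractNth (1 : Fin 4) (· * ·) g (1 : Fin 3) = g 1 * g 2 := rfl
  have h12 : Fin.contractNth (1 : Fin 4) (· * ·) g (2 : Fin 3) = g 3 := rfl
  have h20 : Fin.contractNth (2 : Fin 4) (· * ·) g (0 : Fin 3) = g 0 := rfl
  have h21 : Fin.contractNth (2 : Fin 4) (· * ·) g (1 : Fin 3) = g 1 := rfl
  have h22 : Fin.contractNth (2 : Fin 4) (· * ·) g (2 : Fin 3) = g 2 * g 3 := rfl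
  have h30 : Fin.contractNth (3 : Fin 4) (· * ·) g (0 : Fin 3) = g 0 := rfl
  have h31 : Fin.contractNth (3 : Fin 4) (· * ·) g (1 : Fin 3) = g 1 := rfl
  have h32 : Fin.contractNth (3 : Fin 4) (· * ·) g (2 : Fin 3) = g 2 := rfl
  have hs0 : (Fin.succ (0 : Fin 3) : Fin 4) = 1 := rfl
  have hs1 : (Fin.succ (1 : Fin 3) : Fin 4) = 2 := rfl
  have hs2 : (Fin.succ (2 : Fin 3) : Fin 4) = 3 := rfl
  have hv3 : ((3 : Fin 4) : ℕ) = 3 := rfl
  have hv2 : ((2 : Fin 4) : ℕ) = 2 := rfl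
  have hv1 : ((1 : Fin 4) : ℕ) = 1 := rfl
  have hv0 : ((0 : Fin 4) : ℕ) = 0 := rfl
  rw [h00, h01, h02, h10, h11, h12, h20, h21, h22, h30, h31, h32, hs0, hs1, hs2, hv0, hv1, hv2, hv3]
  have e1 : ((-1 : k) ^ (0 + 1)) = -1 := by norm_num
  have e2 : ((-1 : k) ^ (1 + 1)) = 1 := by norm_num
  have e3 : ((-1 : k) ^ (2 + 1)) = -1 := by norm_num
  have e4 : ((-1 : k) ^ (3 + 1)) = 1 := by norm_num
  rw [e1, e2, e3, e4]
  simp only [neg_smul, one_smul]
  abel

/-- The Mathlib differential in degree `2` is the explicit `d₂₃`. -/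
theorem d_to₂ (b : G × G → A) :
    (inhomogeneousCochains.d A 2).hom (to₂ A b) = to₃ A ((d₂₃ A).hom b) := by
  funext g
  rw [inhomogeneousCochains.d_hom_apply]
  rw [Fin.sum_univ_three]
  simp only [to₂, to₃, d₂₃_hom_apply]
  have h00 : Fin.contractNth (0 : Fin 3) (· * ·) g (0 : Fin 2) = g 0 * g 1 := rfl
  have h01 : Fin.contractNth (0 : Fin 3) (· * ·) g (1 : Fin 2) = g 2 := rfl
  have h10 : Fin.contractNth (1 : Fin 3) (· * ·) g (0 : Fin 2) = g 0 := rfl
  have h11 : Fin.contractNth (1 : Fin 3) (· * ·) g (1 : Fin 2) = g 1 * g 2 := rfl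
  have h20 : Fin.contractNth (2 : Fin 3) (· * ·) g (0 : Fin 2) = g 0 := rfl
  have h21 : Fin.contractNth (2 : Fin 3) (· * ·) g (1 : Fin 2) = g 1 := rfl
  have hs0 : (Fin.succ (0 : Fin 2) : Fin 3) = 1 := rfl
  have hs1 : (Fin.succ (1 : Fin 2) : Fin 3) = 2 := rfl
  have hv2 : ((2 : Fin 3) : ℕ) = 2 := rfl
  have hv1 : ((1 : Fin 3) : ℕ) = 1 := rfl
  have hv0 : ((0 : Fin 3) : ℕ) = 0 := rfl
  rw [h00, h01, h10, h11, h20, h21, hs0, hs1, hv0, hv1, hv2]
  have e1 : ((-1 : k) ^ (0 + 1)) = -1 := by norm_num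
  have e2 : ((-1 : k) ^ (1 + 1)) = 1 := by norm_num
  have e3 : ((-1 : k) ^ (2 + 1)) = -1 := by norm_num
  rw [e1, e2, e3]
  simp only [neg_smul, one_smul]
  abel

lemma to₃_injective : Function.Injective (to₃ A) := fun f f' h => by
  rw [← of₃_to₃ A f, ← of₃_to₃ A f', h]

lemma to₄_injective : Function.Injective (to₄ A) := fun f f' h => by
  funext ⟨a, b, c, d⟩
  exact congrFun h ![a, b, c, d]

lemma to₄_zero : to₄ A (0 : G × G × G × G → A) = 0 := rfl

/-- `(inhomogeneousCochains A).ExactAt 3` in elementwise form. -/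
theorem exactAt_three_iff :
    (inhomogeneousCochains A).ExactAt 3 ↔
      ∀ x : (Fin 3 → G) → A, (inhomogeneousCochains.d A 3).hom x = 0 →
        ∃ y : (Fin 2 → G) → A, (inhomogeneousCochains.d A 2).hom y = x := by
  rw [HomologicalComplex.exactAt_iff' (inhomogeneousCochains A) 2 3 4 (by simp) (by simp),
    ShortComplex.moduleCat_exact_iff]
  have h23 : (inhomogeneousCochains A).d 2 3 = inhomogeneousCochains.d A 2 :=
    inhomogeneousCochains.d_def A 2
  have h34 : (inhomogeneousCochains A).d 3 4 = inhomogeneousCochains.d A 3 :=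
    inhomogeneousCochains.d_def A 3
  constructor
  · intro h x hx
    obtain ⟨y, hy⟩ := h x (by
      show ((inhomogeneousCochains A).d 3 4).hom x = 0
      rw [h34]; exact hx)
    refine ⟨y, ?_⟩
    have : ((inhomogeneousCochains A).d 2 3).hom y = x := hy
    rw [h23] at this
    exact this
  · intro h x hx
    have hx' : ((inhomogeneousCochains A).d 3 4).hom x = 0 := hx
    rw [h34] at hx'
    obtain ⟨y, hy⟩ := h x hx'
    refine ⟨y, ?_⟩
    show ((inhomogeneousCochains A).d 2 3).hom y = x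
    rw [h23]
    exact hy

/-- **`H³ = 0` in explicit form.** -/
theorem isZero_H3_iff :
    Limits.IsZero (groupCohomology A 3) ↔
      ∀ f : G × G × G → A, d₃₄ A f = 0 → ∃ b : G × G → A, (d₂₃ A).hom b = f := by
  have h0 : Limits.IsZero (groupCohomology A 3) ↔ (inhomogeneousCochains A).ExactAt 3 :=
    (HomologicalComplex.exactAt_iff_isZero_homology _ _).symm
  rw [h0, exactAt_three_iff]
  constructor
  · intro h f hf
    obtain ⟨y, hy⟩ := h (to₃ A f) (by rw [d_to₃, hf, to₄_zero])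
    refine ⟨of₂ A y, ?_⟩
    apply to₃_injective A
    rw [← d_to₂, to₂_of₂, hy]
  · intro h x hx
    have hx' : d₃₄ A (of₃ A x) = 0 := by
      apply to₄_injective A
      rw [← d_to₃, to₃_of₃, hx, to₄_zero]
    obtain ⟨b, hb⟩ := h (of₃ A x) hx'
    refine ⟨to₂ A b, ?_⟩
    rw [d_to₂, hb, to₃_of₃]

/-- `d₃₄ ∘ d₂₃ = 0`. -/
theorem d₃₄_d₂₃ (b : G × G → A) : d₃₄ A ((d₂₃ A).hom b) = 0 := by
  apply to₄_injective A
  rw [← d_to₃, ← d_to₂, to₄_zero]
  have h := inhomogeneousCochains.d_comp_d (n := 2) A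
  have h2 : (inhomogeneousCochains.d A 3).hom ((inhomogeneousCochains.d A 2).hom (to₂ A b)) =
      ((inhomogeneousCochains.d A 2 ≫ inhomogeneousCochains.d A 3)).hom (to₂ A b) := rfl
  rw [h2, h]
  rfl

/-- If `H³(G, A) = 0` then every explicit `3`-cocycle is an explicit coboundary. -/
theorem exists_d₂₃_eq_of_isZero (h : Limits.IsZero (groupCohomology A 3))
    (f : G × G × G → A) (hf : d₃₄ A f = 0) : ∃ b : G × G → A, (d₂₃ A).hom b = f :=
  (isZero_H3_iff A).1 h f hf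

end Fermat.Agent.S55.Coh.H3Explicit
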