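/-
S55 / cohomology toolbox (helper60): dévissage for `H¹`.

* `index_smul_coboundary`, `index_smul_eq_zero_of_res_eq_zero`: restriction–corestriction in
  degree 1 (`res_S x = 0 ⇒ [G : S] • x = 0`), direct cocycle proof.
* `isZero_H1_of_layers`: a class `C` of pairs `(G, A)` closed under restriction to subgroups and
  passage to `(G ⧸ N, A^N)`, with `H¹ = 0` on all members of prime order, has `H¹(G, A) = 0` for
  all finite `G` (inflation–restriction `H1InfRes` for `p`-groups + Sylow).

Mathlib only.
-/
import Mathlib

set_option autoImplicit false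
set_option linter.style.haveILetI false
set_option linter.unusedSectionVars false

open CategoryTheory Rep Representation groupCohomology

namespace Fermat.Agent.S55.Coh.H1Devissage

universe u

variable {k G : Type u} [CommRing k] [Group G] (A : Rep k G)

/-! ### Restriction–corestriction in degree 1 -/

section rescor

variable {A}

/-- Cocycle level: if a `1`-cocycle `f` of `G` is a coboundary on the finite index subgroup `S`,
then `[G : S] • f` is a coboundary. -/
theorem index_smul_coboundary (S : Subgroup G) [S.FiniteIndex] (f : G → A)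
    (hf : ∀ g h, f (g * h) = A.ρ g (f h) + f g)
    (a : A) (ha : ∀ s ∈ S, f s = A.ρ s a - a) :
    ∃ b : A, ∀ g : G, S.index • f g = A.ρ g b - b := by
  classical
  haveI : Fintype (G ⧸ S) := Subgroup.fintypeQuotientOfFiniteIndex
  -- normalise: `f' = f - d a` vanishes on `S`
  set f' : G → A := fun g => f g - (A.ρ g a - a) with hf'
  have hf'c : ∀ g h, f' (g * h) = A.ρ g (f' h) + f' g := by
    intro g h
    simp only [hf', hf g h, map_mul, Module.End.mul_apply, map_sub]
    abel
  have hf's : ∀ s ∈ S, f' s = 0 := by
    intro s hs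
    simp only [hf', ha s hs, sub_self]
  have hconst : ∀ g s, s ∈ S → f' (g * s) = f' g := by
    intro g s hs
    rw [hf'c, hf's s hs, map_zero, zero_add]
  -- `f'` factors through `G ⧸ S`
  let F : G ⧸ S → A := Quotient.lift f' (by
    intro g g' h
    have h1 : g⁻¹ * g' ∈ S := QuotientGroup.leftRel_apply.mp h
    have h2 := hconst g _ h1
    rw [mul_inv_cancel_left] at h2
    exact h2.symm)
  have hF : ∀ g : G, F (QuotientGroup.mk g) = f' g := fun g => rfl
  set b' : A := ∑ c : G ⧸ S, F c with hb'
  have key : ∀ g : G, S.index • f' g = b' - A.ρ g b' := by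
    intro g
    have h1 : A.ρ g b' = ∑ c : G ⧸ S, (F (g • c) - f' g) := by
      rw [hb', map_sum]
      refine Finset.sum_congr rfl fun c _ => ?_
      induction c using QuotientGroup.induction_on with
      | H h =>
        have : g • (QuotientGroup.mk h : G ⧸ S) = QuotientGroup.mk (g * h) := rfl
        rw [this, hF, hF, hf'c]
        abel
    rw [h1, Finset.sum_sub_distrib, Finset.sum_const, Finset.card_univ]
    have h2 : ∑ c : G ⧸ S, F (g • c) = b' := by
      rw [hb']
      exact Equiv.sum_comp (MulAction.toPerm g : Equiv.Perm (G ⧸ S)) F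
    rw [h2, Subgroup.index_eq_card, Nat.card_eq_fintype_card]
    abel
  refine ⟨S.index • a - b', fun g => ?_⟩
  have h3 : f g = f' g + (A.ρ g a - a) := by simp only [hf']; abel
  rw [h3, smul_add, key g, map_sub, map_nsmul, smul_sub]
  abel

/-- Class level: `res_S x = 0 ⇒ [G : S] • x = 0` in `H¹`. -/
theorem index_smul_eq_zero_of_res_eq_zero (S : Subgroup G) [S.FiniteIndex] (x : H1 A)
    (hx : groupCohomology.map S.subtype (𝟙 (res S.subtype A)) 1 x = 0) : S.index • x = 0 := by
  induction x using H1_induction_on with | @h x =>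
  rw [H1π_comp_map_apply S.subtype, H1π_eq_zero_iff] at hx
  obtain ⟨(a : A), ha⟩ := hx
  have ha' : ∀ s ∈ S, (x : G → A) s = A.ρ s a - a := by
    intro s hs
    have h1 := congrFun ha ⟨s, hs⟩
    have h2 : (mapCocycles₁ S.subtype (𝟙 (res S.subtype A)) x : S → A) ⟨s, hs⟩ =
        (x : G → A) s := rfl
    rw [h2] at h1
    rw [← h1]
    rfl
  obtain ⟨b, hb⟩ := index_smul_coboundary S (x : G → A) ((mem_cocycles₁_iff _).1 x.2) a ha'
  rw [← map_nsmul, H1π_eq_zero_iff]
  refine ⟨b, ?_⟩
  funext g
  have h3 : ((S.index • x : cocycles₁ A) : G → A) g = S.index • (x : G → A) g := rfl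
  rw [h3, hb g]
  rfl

end rescor

/-! ### The trivial group -/

/-- `H¹` of the trivial group vanishes. -/
theorem isZero_H1_of_subsingleton [Subsingleton G] : Limits.IsZero (H1 A) := by
  rw [ModuleCat.isZero_iff_subsingleton]
  refine ⟨fun x y => ?_⟩
  suffices h : ∀ z : H1 A, z = 0 by rw [h x, h y]
  intro z
  induction z using H1_induction_on with | @h z =>
  rw [H1π_eq_zero_iff]
  refine ⟨(0 : A), ?_⟩
  funext g
  have hg : g = 1 := Subsingleton.elim _ _
  have h1 := (mem_cocycles₁_iff _).1 z.2 1 1
  rw [mul_one, map_one, Module.End.one_apply, left_eq_add] at h1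
  rw [hg, map_zero]
  exact h1.symm

/-! ### Dévissage -/

section devissage

variable (C : ∀ (G : Type u) [Group G], Rep k G → Prop)

/-- `p`-group step. -/
theorem isZero_H1_of_layers_pGroup
    (hres : ∀ (G : Type u) [Group G] (A : Rep k G), C G A →
      ∀ H : Subgroup G, C H (res H.subtype A))
    (hquot : ∀ (G : Type u) [Group G] (A : Rep k G), C G A →
      ∀ (N : Subgroup G) [N.Normal], C (G ⧸ N) (A.quotientToInvariants N))
    (hprime : ∀ (G : Type u) [Group G] [Finite G] (A : Rep k G), C G A →
      (Nat.card G).Prime → Limits.IsZero (H1 A))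
    (p : ℕ) [Fact p.Prime] :
    ∀ (n : ℕ) (G : Type u) [Group G] [Finite G] (A : Rep k G), Nat.card G = n → IsPGroup p G →
      C G A → Limits.IsZero (H1 A) := by
  intro n
  induction n using Nat.strong_induction_on with
  | _ n ih =>
    intro G _ _ A hn hG hA
    obtain ⟨m, hm⟩ := hG.exists_card_eq
    rcases Nat.eq_zero_or_pos m with rfl | hmpos
    · rw [pow_zero] at hm
      haveI : Subsingleton G := (Nat.card_eq_one_iff_unique.mp hm).1
      exact isZero_H1_of_subsingleton A
    · have hp : p.Prime := Fact.out
      obtain ⟨N, hN⟩ := Sylow.exists_subgroup_card_pow_prime (G := G) p (n := m - 1)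
        (by rw [hm]; exact pow_dvd_pow p (Nat.sub_le m 1))
      have hidx : N.index = p := by
        have h1 := N.card_mul_index
        rw [hN, hm] at h1
        have h2 : p ^ m = p ^ (m - 1) * p := by
          rw [← pow_succ]; congr 1; omega
        rw [h2] at h1
        exact Nat.eq_of_mul_eq_mul_left (pow_pos hp.pos _) h1
      haveI : N.Normal := by
        apply Subgroup.normal_of_index_eq_minFac_card
        rw [hidx, hm, hp.pow_minFac hmpos.ne']
      have hq : (Nat.card (G ⧸ N)).Prime := by
        rw [← Subgroup.index_eq_card, hidx]; exact hp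
      have h1 : Limits.IsZero (H1InfRes A N).X₁ :=
        hprime (G ⧸ N) (A.quotientToInvariants N) (hquot G A hA N) hq
      have hlt : Nat.card N < n := by
        rw [hN, ← hn, hm]
        exact Nat.pow_lt_pow_right hp.one_lt (by omega)
      have h3 : Limits.IsZero (H1InfRes A N).X₃ :=
        ih (Nat.card N) hlt N (res N.subtype A) rfl (hG.to_subgroup N) (hres G A hA N)
      exact (H1InfRes_exact A N).isZero_of_both_zeros (h1.eq_of_src _ _) (h3.eq_of_tgt _ _)

/-- **`H¹`-dévissage.** A class `C` of pairs `(G, A)` closed under restriction to subgroups and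
passage to `(G ⧸ N, A^N)`, whose members of prime order have `H¹ = 0`, has `H¹(G, A) = 0` for
all its members with `G` finite. -/
theorem isZero_H1_of_layers
    (hres : ∀ (G : Type u) [Group G] (A : Rep k G), C G A →
      ∀ H : Subgroup G, C H (res H.subtype A))
    (hquot : ∀ (G : Type u) [Group G] (A : Rep k G), C G A →
      ∀ (N : Subgroup G) [N.Normal], C (G ⧸ N) (A.quotientToInvariants N))
    (hprime : ∀ (G : Type u) [Group G] [Finite G] (A : Rep k G), C G A →
      (Nat.card G).Prime → Limits.IsZero (H1 A))
    (G : Type u) [Group G] [Finite G] (A : Rep k G) (hA : C G A) : Limits.IsZero (H1 A) := by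
  rw [ModuleCat.isZero_iff_subsingleton]
  refine ⟨fun x y => ?_⟩
  suffices h : ∀ z : H1 A, z = 0 by rw [h x, h y]
  intro z
  have hSyl : ∀ (p : ℕ) [Fact p.Prime] (P : Sylow p G), (P : Subgroup G).index • z = 0 := by
    intro p _ P
    apply index_smul_eq_zero_of_res_eq_zero
    have hz : Limits.IsZero (H1 (res (P : Subgroup G).subtype A)) :=
      isZero_H1_of_layers_pGroup C hres hquot hprime p _ (P : Subgroup G)
        (res (P : Subgroup G).subtype A) rfl P.isPGroup' (hres G A hA _)
    haveI := ModuleCat.subsingleton_of_isZero hz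
    exact Subsingleton.elim _ _
  by_contra hz
  have hord : addOrderOf z ≠ 1 := fun h => hz (AddMonoid.addOrderOf_eq_one_iff.mp h)
  obtain ⟨q, hq, hqd⟩ := Nat.exists_prime_and_dvd hord
  haveI : Fact q.Prime := ⟨hq⟩
  obtain ⟨P⟩ : Nonempty (Sylow q G) := inferInstance
  have h1 : addOrderOf z ∣ (P : Subgroup G).index := addOrderOf_dvd_of_nsmul_eq_zero (hSyl q P)
  exact P.not_dvd_index (hqd.trans h1)

end devissage

end Fermat.Agent.S55.Coh.H1Devissage
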