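/-
S55 / cohomology toolbox (helper60): a low-degree API for `H³`, the analogue of Mathlib's
`cocycles₂ / coboundaries₂ / H2π / H2π_eq_zero_iff / H2π_comp_map_apply`.

* `cocycles₃ A = ker d₃₄`, `coboundaries₃ A = range d₂₃` (explicit cochains `G × G × G → A`);
* `H3π A : cocycles₃ A →ₗ[k] groupCohomology A 3`, surjective;
* `H3π_eq_zero_iff : H3π A x = 0 ↔ ⇑x ∈ coboundaries₃ A`;
* `map_H3π` : `groupCohomology.map f φ 3 (H3π A x) = H3π B (mapCocycles₃ f φ x)`.

Mathlib + `Coh/H3Explicit`.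
-/
import Mathlib
import Fermat.Agent.S55.Coh.H3Explicit

set_option autoImplicit false

open CategoryTheory groupCohomology

namespace Fermat.Agent.S55.Coh.H3Pi

open Fermat.Agent.S55.Coh.H3Explicit

universe u

variable {k G : Type u} [CommRing k] [Group G] (A : Rep.{u} k G)

/-- Explicit `3`-cocycles. -/
def cocycles₃ : Submodule k (G × G × G → A) := LinearMap.ker (d₃₄ A)

/-- Explicit `3`-coboundaries. -/
def coboundaries₃ : Submodule k (G × G × G → A) := LinearMap.range (d₂₃ A).hom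

lemma mem_cocycles₃_iff (f : G × G × G → A) : f ∈ cocycles₃ A ↔ d₃₄ A f = 0 := LinearMap.mem_ker

lemma coboundaries₃_le_cocycles₃ : coboundaries₃ A ≤ cocycles₃ A := by
  rintro _ ⟨b, rfl⟩
  exact (mem_cocycles₃_iff A _).2 (d₃₄_d₂₃ A b)

lemma d_to₃_eq_zero (x : cocycles₃ A) :
    inhomogeneousCochains.d A 3 (to₃ A (x : G × G × G → A)) = 0 := by
  have h : (inhomogeneousCochains.d A 3).hom (to₃ A (x : G × G × G → A)) = 0 := by
    rw [d_to₃, (mem_cocycles₃_iff A _).1 x.2]
    rfl
  exact h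

lemma iCocycles_injective (n : ℕ) : Function.Injective (iCocycles A n) :=
  (ModuleCat.mono_iff_injective _).1 inferInstance

/-- The abstract cocycle of an explicit `3`-cocycle. -/
noncomputable def toCocycles₃ : cocycles₃ A →ₗ[k] groupCohomology.cocycles A 3 where
  toFun x := cocyclesMk (to₃ A (x : G × G × G → A)) (d_to₃_eq_zero A x)
  map_add' x y := by
    apply iCocycles_injective A 3
    rw [map_add, iCocycles_mk _ (d_to₃_eq_zero A (x + y)), iCocycles_mk _ (d_to₃_eq_zero A x),
      iCocycles_mk _ (d_to₃_eq_zero A y)]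
    rfl
  map_smul' c x := by
    apply iCocycles_injective A 3
    rw [map_smul, iCocycles_mk _ (d_to₃_eq_zero A (c • x)), iCocycles_mk _ (d_to₃_eq_zero A x)]
    rfl

lemma iCocycles_toCocycles₃ (x : cocycles₃ A) :
    iCocycles A 3 (toCocycles₃ A x) = to₃ A (x : G × G × G → A) :=
  iCocycles_mk _ (d_to₃_eq_zero A x)

/-- The class of an explicit `3`-cocycle. -/
noncomputable def H3π : cocycles₃ A →ₗ[k] groupCohomology A 3 :=
  (groupCohomology.π A 3).hom ∘ₗ toCocycles₃ A

lemma H3π_apply (x : cocycles₃ A) : H3π A x = groupCohomology.π A 3 (toCocycles₃ A x) := rfl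

/-- Every abstract `3`-cocycle comes from an explicit one. -/
lemma exists_toCocycles₃_eq (z : groupCohomology.cocycles A 3) :
    ∃ x : cocycles₃ A, toCocycles₃ A x = z := by
  have hz : inhomogeneousCochains.d A 3 (iCocycles A 3 z) = 0 := by
    have h := (inhomogeneousCochains A).iCycles_d 3 4
    rw [inhomogeneousCochains.d_def A 3] at h
    have h2 : (iCocycles A 3 ≫ inhomogeneousCochains.d A 3).hom z = 0 := by
      rw [show iCocycles A 3 ≫ inhomogeneousCochains.d A 3 = 0 from h]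
      rfl
    exact h2
  have hx : d₃₄ A (of₃ A (iCocycles A 3 z)) = 0 := by
    apply to₄_injective A
    rw [← d_to₃, to₃_of₃, to₄_zero]
    exact hz
  refine ⟨⟨of₃ A (iCocycles A 3 z), (mem_cocycles₃_iff A _).2 hx⟩, ?_⟩
  apply iCocycles_injective A 3
  rw [iCocycles_toCocycles₃]
  exact to₃_of₃ A _

lemma H3π_surjective : Function.Surjective (H3π A) := by
  intro c
  induction c using groupCohomology_induction_on with
  | h z =>
    obtain ⟨x, rfl⟩ := exists_toCocycles₃_eq A z
    exact ⟨x, rfl⟩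

/-- An abstract `3`-cocycle has zero class iff it is `toCocycles 2 3` of a `2`-cochain. -/
lemma π_eq_zero_iff (z : groupCohomology.cocycles A 3) :
    groupCohomology.π A 3 z = 0 ↔ ∃ y : (Fin 2 → G) → A, toCocycles A 2 3 y = z := by
  have hex : (ShortComplex.mk ((inhomogeneousCochains A).toCycles 2 3)
      ((inhomogeneousCochains A).homologyπ 3)
      ((inhomogeneousCochains A).toCycles_comp_homologyπ 2 3)).Exact :=
    ShortComplex.exact_of_g_is_cokernel _
      ((inhomogeneousCochains A).homologyIsCokernel 2 3 (by simp))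
  rw [ShortComplex.moduleCat_exact_iff] at hex
  constructor
  · intro h
    exact hex z h
  · rintro ⟨y, rfl⟩
    have h := (inhomogeneousCochains A).toCycles_comp_homologyπ 2 3
    have h2 : ((inhomogeneousCochains A).toCycles 2 3 ≫
        (inhomogeneousCochains A).homologyπ 3).hom y = 0 := by
      rw [h]; rfl
    exact h2

lemma iCocycles_toCocycles₂₃ (y : (Fin 2 → G) → A) :
    iCocycles A 3 (toCocycles A 2 3 y) = inhomogeneousCochains.d A 2 y := by
  have h := (inhomogeneousCochains A).toCycles_i 2 3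
  rw [inhomogeneousCochains.d_def A 2] at h
  have h2 : (toCocycles A 2 3 ≫ iCocycles A 3).hom y = (inhomogeneousCochains.d A 2).hom y := by
    rw [show toCocycles A 2 3 ≫ iCocycles A 3 = inhomogeneousCochains.d A 2 from h]
  exact h2

variable {A} in
/-- **The kernel of `H3π`.** -/
theorem H3π_eq_zero_iff (x : cocycles₃ A) :
    H3π A x = 0 ↔ (x : G × G × G → A) ∈ coboundaries₃ A := by
  rw [H3π_apply, π_eq_zero_iff]
  constructor
  · rintro ⟨y, hy⟩
    refine ⟨of₂ A y, ?_⟩
    apply to₃_injective A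
    rw [← d_to₂, to₂_of₂, ← iCocycles_toCocycles₃, ← hy]
    exact (iCocycles_toCocycles₂₃ A y).symm
  · rintro ⟨b, hb⟩
    refine ⟨to₂ A b, ?_⟩
    apply iCocycles_injective A 3
    rw [iCocycles_toCocycles₃, ← hb, ← d_to₂]
    exact iCocycles_toCocycles₂₃ A _

variable {A} in
theorem H3π_eq_iff (x y : cocycles₃ A) :
    H3π A x = H3π A y ↔ (x : G × G × G → A) - (y : G × G × G → A) ∈ coboundaries₃ A := by
  rw [← sub_eq_zero, ← map_sub, H3π_eq_zero_iff]
  rfl

variable {A} in
@[elab_as_elim]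
theorem H3_induction_on {C : groupCohomology A 3 → Prop} (c : groupCohomology A 3)
    (h : ∀ x : cocycles₃ A, C (H3π A x)) : C c := by
  obtain ⟨x, rfl⟩ := H3π_surjective A c
  exact h x

/-! ### Functoriality -/

section Functoriality

variable {H : Type u} [Group H] {A : Rep.{u} k H} {B : Rep.{u} k G} (f : G →* H)
  (φ : Rep.res f A ⟶ B)

/-- The explicit map on `3`-cochains `x ↦ φ ∘ x ∘ f³`. -/
def mapFun₃ : (H × H × H → A) →ₗ[k] (G × G × G → B) where
  toFun x := fun p => φ.hom (x (f p.1, f p.2.1, f p.2.2))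
  map_add' x y := funext fun p => by simp only [Pi.add_apply, map_add]
  map_smul' c x := funext fun p => by simp only [Pi.smul_apply, map_smul, RingHom.id_apply]

@[simp] lemma mapFun₃_apply (x : H × H × H → A) (g₁ g₂ g₃ : G) :
    mapFun₃ f φ x (g₁, g₂, g₃) = φ.hom (x (f g₁, f g₂, f g₃)) := rfl

lemma d₃₄_mapFun₃ (x : H × H × H → A) (g₁ g₂ g₃ g₄ : G) :
    d₃₄ B (mapFun₃ f φ x) (g₁, g₂, g₃, g₄) = φ.hom (d₃₄ A x (f g₁, f g₂, f g₃, f g₄)) := by
  have hcomm : ∀ (g : G) (a : A), B.ρ g (φ.hom a) = φ.hom (A.ρ (f g) a) := fun g a =>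
    (Rep.hom_comm_apply φ g a).symm
  simp only [d₃₄_apply, mapFun₃_apply, map_add, map_sub, map_mul, hcomm]

/-- The explicit map on `3`-cocycles. -/
def mapCocycles₃ : cocycles₃ A →ₗ[k] cocycles₃ B :=
  (mapFun₃ f φ).restrict (p := cocycles₃ A) (q := cocycles₃ B) (fun x hx => by
    rw [mem_cocycles₃_iff] at hx ⊢
    funext ⟨g₁, g₂, g₃, g₄⟩
    rw [d₃₄_mapFun₃, hx]
    exact map_zero _)

@[simp] lemma coe_mapCocycles₃ (x : cocycles₃ A) :
    ((mapCocycles₃ f φ x : cocycles₃ B) : G × G × G → B) = mapFun₃ f φ x := rfl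

lemma cochainsMap_to₃ (x : H × H × H → A) :
    ((cochainsMap f φ).f 3).hom (to₃ A x) = to₃ B (mapFun₃ f φ x) := by
  funext g
  rfl

/-- **Naturality of `H3π`.** -/
theorem map_H3π (x : cocycles₃ A) :
    (groupCohomology.map f φ 3).hom (H3π A x) = H3π B (mapCocycles₃ f φ x) := by
  rw [H3π_apply, H3π_apply]
  have h := π_map f φ 3
  have h2 : (groupCohomology.π A 3 ≫ groupCohomology.map f φ 3).hom (toCocycles₃ A x) =
      (cocyclesMap f φ 3 ≫ groupCohomology.π B 3).hom (toCocycles₃ A x) := by rw [h]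
  refine h2.trans ?_
  show (groupCohomology.π B 3).hom ((cocyclesMap f φ 3).hom (toCocycles₃ A x)) = _
  congr 1
  apply iCocycles_injective B 3
  rw [iCocycles_toCocycles₃]
  have h3 := HomologicalComplex.cyclesMap_i (cochainsMap f φ) 3
  have h4 : (cocyclesMap f φ 3 ≫ iCocycles B 3).hom (toCocycles₃ A x) =
      (iCocycles A 3 ≫ (cochainsMap f φ).f 3).hom (toCocycles₃ A x) := by rw [h3]
  refine h4.trans ?_
  show ((cochainsMap f φ).f 3).hom (iCocycles A 3 (toCocycles₃ A x)) = _
  rw [iCocycles_toCocycles₃, cochainsMap_to₃]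
  rfl

end Functoriality

end Fermat.Agent.S55.Coh.H3Pi
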