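/-
S55 / cohomology toolbox — systems of imprimitivity (owner: helper39).

A `G`-module `B` with a family of orthogonal idempotents `π x` (`x` in a finite transitive
`G`-set `X`) summing to `1` and permuted by `G` (`ρ g ∘ π x = π (g • x) ∘ ρ g`) is coinduced
from the stabiliser `U` of any point `x₀`, acting on the component `range (π x₀)`:

  `B ≃ coind_U^G (range (π x₀))`,   `b ↦ (g ↦ π x₀ (ρ g b))`.

Hence `Hⁿ(G, B) ≅ Hⁿ(U, range (π x₀))` for all `n` (Mathlib's Shapiro `coindIso`).
Typical use: `B = ∏_{w | v} L_wˣ` (semi-local units / idèle components) for a Galois extension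
`L/K` of number fields, `X` = places above `v`, `U` = decomposition group.
-/
import Mathlib

set_option autoImplicit false
set_option linter.unusedSectionVars false

namespace Fermat.Agent.S55.Coh.Imprimitive

open MulAction

section Plain

variable {k G B X : Type*} [CommRing k] [Group G] [AddCommGroup B] [Module k B]
  [Fintype X] [MulAction G X]

/-- A system of imprimitivity for the representation `ρ`, indexed by the `G`-set `X`. -/
structure System (ρ : Representation k G B) (π : X → B →ₗ[k] B) : Prop where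
  idem : ∀ x b, π x (π x b) = π x b
  orth : ∀ x y, x ≠ y → ∀ b, π x (π y b) = 0
  sum : ∀ b, ∑ x, π x b = b
  equiv : ∀ g x b, ρ g (π x b) = π (g • x) (ρ g b)

variable {ρ : Representation k G B} {π : X → B →ₗ[k] B} (h : System ρ π) (x₀ : X)

include h in
lemma stab_mem_range (u : stabilizer G x₀) (a : B) (ha : a ∈ LinearMap.range (π x₀)) :
    ρ (u : G) a ∈ LinearMap.range (π x₀) := by
  obtain ⟨b, rfl⟩ := ha
  refine ⟨ρ (u : G) b, ?_⟩
  rw [h.equiv (u : G) x₀ b, mem_stabilizer_iff.mp u.2]

/-- The representation of the stabiliser of `x₀` on the component `range (π x₀)`. -/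
def stabRep : Representation k (stabilizer G x₀) (LinearMap.range (π x₀)) where
  toFun u := (ρ (u : G)).restrict (fun a ha => stab_mem_range h x₀ u a ha)
  map_one' := by
    ext a
    simp
  map_mul' u v := by
    ext a
    simp

@[simp] lemma coe_stabRep (u : stabilizer G x₀) (a : LinearMap.range (π x₀)) :
    ((stabRep h x₀ u a : LinearMap.range (π x₀)) : B) = ρ (u : G) (a : B) := rfl

/-- The comparison map `B → coind_U^G (range (π x₀))`, `b ↦ (g ↦ π x₀ (ρ g b))`. -/
def toCoind : B →ₗ[k] Representation.coindV (stabilizer G x₀).subtype (stabRep h x₀) where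
  toFun b := ⟨fun g => ⟨π x₀ (ρ g b), LinearMap.mem_range_self _ _⟩, by
    intro u g
    apply Subtype.ext
    show π x₀ (ρ ((u : G) * g) b) = ρ (u : G) (π x₀ (ρ g b))
    rw [map_mul, Module.End.mul_apply, h.equiv (u : G) x₀, mem_stabilizer_iff.mp u.2]⟩
  map_add' a b := by
    apply Subtype.ext
    funext g
    apply Subtype.ext
    simp
  map_smul' c b := by
    apply Subtype.ext
    funext g
    apply Subtype.ext
    simp

@[simp] lemma toCoind_apply (b : B) (g : G) :
    (((toCoind h x₀ b).1 g : LinearMap.range (π x₀)) : B) = π x₀ (ρ g b) := rfl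

/-- Equivariance of the comparison map. -/
lemma toCoind_smul (g : G) (b : B) :
    toCoind h x₀ (ρ g b) =
      Representation.coind (stabilizer G x₀).subtype (stabRep h x₀) g (toCoind h x₀ b) := by
  apply Subtype.ext
  funext x
  apply Subtype.ext
  show π x₀ (ρ x (ρ g b)) = π x₀ (ρ (x * g) b)
  rw [map_mul, Module.End.mul_apply]

lemma rho_inv_rho (g : G) (b : B) : ρ g⁻¹ (ρ g b) = b := by
  rw [← Module.End.mul_apply, ← map_mul, inv_mul_cancel, map_one, Module.End.one_apply]

lemma rho_rho_inv (g : G) (b : B) : ρ g (ρ g⁻¹ b) = b := by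
  rw [← Module.End.mul_apply, ← map_mul, mul_inv_cancel, map_one, Module.End.one_apply]

variable [IsPretransitive G X]

include h in
lemma toCoind_injective : Function.Injective (toCoind h x₀) := by
  rw [← LinearMap.ker_eq_bot, LinearMap.ker_eq_bot']
  intro b hb
  have hz : ∀ g, π x₀ (ρ g b) = 0 := fun g => by
    have := congrArg (fun f => ((f.1 g : LinearMap.range (π x₀)) : B)) hb
    simpa using this
  rw [← h.sum b]
  refine Finset.sum_eq_zero fun x _ => ?_
  obtain ⟨g, hg⟩ := exists_smul_eq G x x₀
  have h1 : ρ g (π x b) = 0 := by rw [h.equiv, hg, hz]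
  rw [← rho_inv_rho (ρ := ρ) g (π x b), h1, map_zero]

/-- a chosen element moving `x` to `x₀` -/
noncomputable def mover (x : X) : G := (exists_smul_eq G x x₀).choose

lemma mover_smul (x : X) : mover (G := G) x₀ x • x = x₀ := (exists_smul_eq G x x₀).choose_spec

include h in
lemma toCoind_surjective : Function.Surjective (toCoind h x₀) := by
  classical
  intro f
  refine ⟨∑ x, ρ (mover (G := G) x₀ x)⁻¹ ((f.1 (mover x₀ x) : LinearMap.range (π x₀)) : B), ?_⟩
  apply Subtype.ext
  funext g
  apply Subtype.ext
  rw [toCoind_apply, map_sum, map_sum]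
  -- only the term `x = g⁻¹ • x₀` survives
  have hterm : ∀ x, π x₀ (ρ g (ρ (mover (G := G) x₀ x)⁻¹
      ((f.1 (mover x₀ x) : LinearMap.range (π x₀)) : B)))
      = if x = g⁻¹ • x₀ then ((f.1 g : LinearMap.range (π x₀)) : B) else 0 := by
    intro x
    set m := mover (G := G) x₀ x with hm
    have hmx : m • x = x₀ := mover_smul x₀ x
    obtain ⟨c, hc⟩ := (f.1 m).2
    have hxe : (g * m⁻¹) • x₀ = g • x := by
      rw [mul_smul, ← hmx, inv_smul_smul]
    have key : ρ g (ρ m⁻¹ ((f.1 m : LinearMap.range (π x₀)) : B))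
        = π (g • x) (ρ (g * m⁻¹) ((f.1 m : LinearMap.range (π x₀)) : B)) := by
      have h1 : ((f.1 m : LinearMap.range (π x₀)) : B) = π x₀ ((f.1 m : LinearMap.range (π x₀)) : B) := by
        rw [← hc, h.idem]
      calc ρ g (ρ m⁻¹ ((f.1 m : LinearMap.range (π x₀)) : B))
          = ρ (g * m⁻¹) ((f.1 m : LinearMap.range (π x₀)) : B) := by
            rw [map_mul, Module.End.mul_apply]
        _ = ρ (g * m⁻¹) (π x₀ ((f.1 m : LinearMap.range (π x₀)) : B)) := by rw [← h1]
        _ = π (g • x) (ρ (g * m⁻¹) ((f.1 m : LinearMap.range (π x₀)) : B)) := by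
            rw [h.equiv, hxe]
    rw [key]
    split_ifs with hx
    · -- `g • x = x₀`
      have hgx : g • x = x₀ := by rw [hx, smul_inv_smul]
      have hu : g * m⁻¹ ∈ stabilizer G x₀ := by
        rw [mem_stabilizer_iff, hxe, hgx]
      rw [hgx, h.idem]
      have hf := f.2 ⟨g * m⁻¹, hu⟩ m
      have hf' : f.1 g = stabRep h x₀ ⟨g * m⁻¹, hu⟩ (f.1 m) := by
        rw [← hf]
        simp
      rw [hf', coe_stabRep]
      obtain ⟨c', hc'⟩ := (stabRep h x₀ ⟨g * m⁻¹, hu⟩ (f.1 m)).2
      rw [coe_stabRep] at hc'
      show π x₀ (ρ (g * m⁻¹) ((f.1 m : LinearMap.range (π x₀)) : B)) = _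
      rw [← hc', h.idem]
    · have hne : x₀ ≠ g • x := by
        intro he
        apply hx
        rw [he, inv_smul_smul]
      exact h.orth x₀ (g • x) hne _
  rw [Finset.sum_congr rfl fun x _ => hterm x, Finset.sum_ite_eq' Finset.univ (g⁻¹ • x₀)]
  simp

/-- **A module with a transitive system of imprimitivity is coinduced.** -/
noncomputable def equivCoind :
    B ≃ₗ[k] Representation.coindV (stabilizer G x₀).subtype (stabRep h x₀) :=
  LinearEquiv.ofBijective (toCoind h x₀) ⟨toCoind_injective h x₀, toCoind_surjective h x₀⟩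

@[simp] lemma equivCoind_apply (b : B) : equivCoind h x₀ b = toCoind h x₀ b := rfl

lemma equivCoind_smul (g : G) (b : B) :
    equivCoind h x₀ (ρ g b) =
      Representation.coind (stabilizer G x₀).subtype (stabRep h x₀) g (equivCoind h x₀ b) :=
  toCoind_smul h x₀ g b

/-- The equivalence of representations `ρ ≃ coind_U^G (stabRep)`. -/
noncomputable def repEquiv :
    ρ.Equiv (Representation.coind (stabilizer G x₀).subtype (stabRep h x₀)) :=
  Representation.Equiv.mk (equivCoind h x₀) fun g => by
    ext b : 1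
    exact equivCoind_smul h x₀ g b

end Plain

section RepLevel

universe u

open CategoryTheory

variable {k G B : Type u} {X : Type*} [CommRing k] [Group G] [AddCommGroup B] [Module k B]
  [Fintype X] [MulAction G X] [IsPretransitive G X]
  {ρ : Representation k G B} {π : X → B →ₗ[k] B} (h : System ρ π) (x₀ : X)

/-- `Rep`-level form: `B ≅ coind_U^G (range (π x₀))`. -/
noncomputable def repIso :
    Rep.of ρ ≅ Rep.coind (stabilizer G x₀).subtype (Rep.of (stabRep h x₀)) :=
  Rep.mkIso (repEquiv h x₀)

/-- **Shapiro for a system of imprimitivity**: `Hⁿ(G, B) ≅ Hⁿ(U, range (π x₀))`. -/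
noncomputable def cohomologyIso (n : ℕ) :
    groupCohomology (Rep.of ρ) n ≅ groupCohomology (Rep.of (stabRep h x₀)) n :=
  (groupCohomology.functor k G n).mapIso (repIso h x₀) ≪≫
    groupCohomology.coindIso (Rep.of (stabRep h x₀)) n

/-- The underlying linear equivalence of `cohomologyIso`. -/
noncomputable def cohomologyEquiv (n : ℕ) :
    groupCohomology (Rep.of ρ) n ≃ₗ[k] groupCohomology (Rep.of (stabRep h x₀)) n :=
  (cohomologyIso h x₀ n).toLinearEquiv

lemma card_cohomology_eq (n : ℕ) :
    Nat.card (groupCohomology (Rep.of ρ) n) =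
      Nat.card (groupCohomology (Rep.of (stabRep h x₀)) n) :=
  Nat.card_congr (cohomologyEquiv h x₀ n).toEquiv

lemma finite_cohomology_iff (n : ℕ) :
    Finite (groupCohomology (Rep.of ρ) n) ↔
      Finite (groupCohomology (Rep.of (stabRep h x₀)) n) :=
  (cohomologyEquiv h x₀ n).toEquiv.finite_iff

lemma subsingleton_cohomology_iff (n : ℕ) :
    Subsingleton (groupCohomology (Rep.of ρ) n) ↔
      Subsingleton (groupCohomology (Rep.of (stabRep h x₀)) n) :=
  (cohomologyEquiv h x₀ n).toEquiv.subsingleton_congr

end RepLevel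

section PiSystem

/-! ### The standard example: `B = Π x, C x` with the coordinate idempotents. -/

variable {k G X : Type*} [CommRing k] [Group G] [Fintype X] [DecidableEq X] [MulAction G X]
  {C : X → Type*} [∀ x, AddCommGroup (C x)] [∀ x, Module k (C x)]

/-- The coordinate idempotent `b ↦ Pi.single x (b x)` on `Π x, C x`. -/
def piIdem (x : X) : (∀ y, C y) →ₗ[k] (∀ y, C y) :=
  (LinearMap.single k C x).comp (LinearMap.proj x)

@[simp] lemma piIdem_apply (x : X) (b : ∀ y, C y) :
    piIdem (k := k) x b = Pi.single x (b x) := rfl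

/-- For `B = Π x, C x` with the coordinate idempotents, only the permutation condition
`ρ g (single x c) = single (g • x) (…)` has to be checked. -/
lemma System.ofPi (ρ : Representation k G (∀ y, C y))
    (hρ : ∀ g x (b : ∀ y, C y), ρ g (Pi.single x (b x)) = Pi.single (g • x) (ρ g b (g • x))) :
    System ρ (fun x => piIdem (k := k) (C := C) x) where
  idem x b := by simp
  orth x y hxy b := by
    simp only [piIdem_apply]
    rw [Pi.single_eq_of_ne hxy, Pi.single_zero]
  sum b := by
    simp only [piIdem_apply]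
    exact Finset.univ_sum_single b
  equiv g x b := by
    simp only [piIdem_apply]
    exact hρ g x b

end PiSystem

end Fermat.Agent.S55.Coh.Imprimitive
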