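/-
S55 / cohomology toolbox (helper60): inflation–restriction in degree 2.

For a normal subgroup `S ≤ G` and `A : Rep k G` with `H¹(S, A) = 0`:
`0 ⟶ H²(G ⧸ S, A^S) ⟶ H²(G, A) ⟶ H²(S, A)` is exact.

Direct cocycle proof.  Mathlib only.
-/
import Mathlib

set_option autoImplicit false
set_option linter.style.haveILetI false
set_option linter.unusedSectionVars false

open CategoryTheory Rep Representation groupCohomology

namespace Fermat.Agent.S55.Coh.InfRes2

universe u

variable {k G : Type u} [CommRing k] [Group G] (A : Rep k G) (S : Subgroup G)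

/-! ### Cocycle-level computations -/

section cocycle

variable {A}

/-- The cocycle identity, in the form used below. -/
theorem cocycle_id (x : cocycles₂ A) (g h j : G) :
    x (g * h, j) + x (g, h) = A.ρ g (x (h, j)) + x (g, h * j) :=
  (mem_cocycles₂_iff x).1 x.2 g h j

/-- Subtracting a coboundary. -/
noncomputable def subD (x : cocycles₂ A) (c : G → A) : cocycles₂ A :=
  x - ⟨d₁₂ A c, d₁₂_apply_mem_cocycles₂ c⟩

theorem subD_apply (x : cocycles₂ A) (c : G → A) (g h : G) :
    subD x c (g, h) = x (g, h) - (A.ρ g (c h) - c (g * h) + c g) := by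
  show (x : G × G → A) (g, h) - (d₁₂ A c) (g, h) = _
  rw [d₁₂_hom_apply]

theorem subD_cohomologous (x : cocycles₂ A) (c : G → A) :
    H2π A (subD x c) = H2π A x := by
  rw [H2π_eq_iff]
  refine ⟨-c, ?_⟩
  ext ⟨g, h⟩
  rw [map_neg]
  show -(d₁₂ A c) (g, h) = (x : G × G → A) (g, h) - (d₁₂ A c) (g, h) - (x : G × G → A) (g, h)
  abel

end cocycle

/-! ### Coset representatives -/

section reps

variable {S} [S.Normal]

/-- A representative of the coset of `g`. -/
noncomputable def rep (S : Subgroup G) (g : G) : G := (QuotientGroup.mk g : G ⧸ S).out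

/-- `g = sig g * rep g` with `sig g ∈ S`. -/
noncomputable def sig (S : Subgroup G) (g : G) : G := g * (rep S g)⁻¹

theorem mk_rep (g : G) : (QuotientGroup.mk (rep S g) : G ⧸ S) = QuotientGroup.mk g :=
  QuotientGroup.out_eq' _

theorem sig_mem (g : G) : sig S g ∈ S := by
  have h1 : (rep S g)⁻¹ * g ∈ S := QuotientGroup.eq.mp (mk_rep (S := S) g)
  have h2 := Subgroup.Normal.conj_mem ‹S.Normal› _ h1 (rep S g)
  have h3 : rep S g * ((rep S g)⁻¹ * g) * (rep S g)⁻¹ = sig S g := by
    unfold sig; group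
  rwa [h3] at h2

theorem sig_mul_rep (g : G) : sig S g * rep S g = g := by
  unfold sig; group

theorem rep_mul_of_mem {s : G} (hs : s ∈ S) (g : G) : rep S (s * g) = rep S g := by
  unfold rep
  congr 1
  rw [QuotientGroup.mk_mul, (QuotientGroup.eq_one_iff s).mpr hs, one_mul]

theorem sig_mul_of_mem {s : G} (hs : s ∈ S) (g : G) : sig S (s * g) = s * sig S g := by
  unfold sig
  rw [rep_mul_of_mem hs, mul_assoc]

theorem rep_mem_of_mem {s : G} (hs : s ∈ S) : rep S s ∈ S := by
  have h := mk_rep (S := S) s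
  rw [(QuotientGroup.eq_one_iff s).mpr hs] at h
  exact (QuotientGroup.eq_one_iff _).mp h

theorem rep_mem_iff (g : G) : rep S g ∈ S ↔ g ∈ S := by
  constructor
  · intro h
    have := S.mul_mem (sig_mem (S := S) g) h
    rwa [sig_mul_rep] at this
  · exact rep_mem_of_mem

end reps

/-! ### The three normalisation steps -/

section steps

variable {A} {S} [S.Normal]

/-- Step 0: if the restriction of `x` to `S × S` is a coboundary, `x` is cohomologous to a cocycle
vanishing on `S × S`. -/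
theorem step0 (x : cocycles₂ A) (b : S → A)
    (hb : ∀ s t : S, x ((s : G), (t : G)) = A.ρ s (b t) - b (s * t) + b s) :
    ∃ y : cocycles₂ A, H2π A y = H2π A x ∧ ∀ s t : G, s ∈ S → t ∈ S → y (s, t) = 0 := by
  classical
  refine ⟨subD x (fun g => if h : g ∈ S then b ⟨g, h⟩ else 0), subD_cohomologous _ _, ?_⟩
  intro s t hs ht
  rw [subD_apply, dif_pos ht, dif_pos hs, dif_pos (S.mul_mem hs ht)]
  have := hb ⟨s, hs⟩ ⟨t, ht⟩
  simp only at this
  rw [this]
  exact sub_self _

/-- Step 1: a cocycle vanishing on `S × S` is cohomologous to one vanishing on `S × G`. -/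
theorem step1 (y : cocycles₂ A) (hy : ∀ s t : G, s ∈ S → t ∈ S → y (s, t) = 0) :
    ∃ z : cocycles₂ A, H2π A z = H2π A y ∧ ∀ s g : G, s ∈ S → z (s, g) = 0 := by
  refine ⟨subD y (fun g => - y (sig S g, rep S g)), subD_cohomologous _ _, ?_⟩
  intro s g hs
  rw [subD_apply]
  have h1 : y (sig S s, rep S s) = 0 := hy _ _ (sig_mem s) (rep_mem_of_mem hs)
  have h2 := cocycle_id y s (sig S g) (rep S g)
  rw [hy s (sig S g) hs (sig_mem g), add_zero, sig_mul_rep] at h2
  rw [rep_mul_of_mem hs, sig_mul_of_mem hs, h1, h2, map_neg]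
  abel

/-- For a cocycle vanishing on `S × G`: `z (s * g, h) = s • z (g, h)`. -/
theorem smul_of_vanish (z : cocycles₂ A) (hz : ∀ s g : G, s ∈ S → z (s, g) = 0)
    {s : G} (hs : s ∈ S) (g h : G) : z (s * g, h) = A.ρ s (z (g, h)) := by
  have := cocycle_id z s g h
  rwa [hz s g hs, hz s (g * h) hs, add_zero, add_zero] at this

/-- The vanishing of `H¹(S, A)`, in concrete form. -/
def H1Vanishes (A : Rep k G) (S : Subgroup G) : Prop :=
  ∀ χ : S → A, (∀ u v : S, χ (u * v) = A.ρ u (χ v) + χ u) → ∃ a : A, ∀ u : S, χ u = A.ρ u a - a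

/-- Step 2: using `H¹(S, A) = 0`, a cocycle vanishing on `S × G` is cohomologous to one vanishing
on `S × G` and on `G × S`. -/
theorem step2 (hS : H1Vanishes A S) (z : cocycles₂ A) (hz : ∀ s g : G, s ∈ S → z (s, g) = 0) :
    ∃ w : cocycles₂ A, H2π A w = H2π A z ∧ (∀ s g : G, s ∈ S → w (s, g) = 0) ∧
      (∀ g s : G, s ∈ S → w (g, s) = 0) := by
  classical
  -- the crossed homomorphisms `u ↦ z (g, g⁻¹ u g)`
  have hχ : ∀ g : G, ∃ a : A, ∀ t : G, t ∈ S → z (g, t) = A.ρ (g * t * g⁻¹) a - a := by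
    intro g
    have hconj : ∀ u : S, g⁻¹ * (u : G) * g ∈ S := fun u =>
      Subgroup.Normal.conj_mem' ‹S.Normal› _ u.2 g
    obtain ⟨a, ha⟩ := hS (fun u => z (g, g⁻¹ * (u : G) * g)) (by
      intro u v
      have h1 := cocycle_id z g (g⁻¹ * (u : G) * g) (g⁻¹ * (v : G) * g)
      have h2 : g * (g⁻¹ * (u : G) * g) = (u : G) * g := by group
      have h3 : g⁻¹ * (u : G) * g * (g⁻¹ * (v : G) * g) = g⁻¹ * ((u * v : S) : G) * g := by
        push_cast; group
      rw [h2, h3, hz _ _ (hconj u), map_zero, zero_add, smul_of_vanish z hz u.2] at h1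
      exact h1.symm)
    refine ⟨a, fun t ht => ?_⟩
    have hu : g * t * g⁻¹ ∈ S := Subgroup.Normal.conj_mem ‹S.Normal› _ ht g
    have := ha ⟨g * t * g⁻¹, hu⟩
    simp only at this
    have h4 : g⁻¹ * (g * t * g⁻¹) * g = t := by group
    rw [h4] at this
    exact this
  choose sol hsol using hχ
  -- an `S`-equivariant choice of solutions, vanishing on `S`
  let a : G → A := fun g => if g ∈ S then 0 else A.ρ (sig S g) (sol (rep S g))
  have ha_S : ∀ s : G, s ∈ S → a s = 0 := fun s hs => if_pos hs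
  have ha_eq : ∀ s g : G, s ∈ S → a (s * g) = A.ρ s (a g) := by
    intro s g hs
    by_cases hg : g ∈ S
    · rw [ha_S _ (S.mul_mem hs hg), ha_S _ hg, map_zero]
    · have hsg : s * g ∉ S := fun h => hg (by
        have := S.mul_mem (S.inv_mem hs) h
        rwa [inv_mul_cancel_left] at this)
      show (if s * g ∈ S then (0 : A) else _) = A.ρ s (if g ∈ S then 0 else _)
      rw [if_neg hsg, if_neg hg, rep_mul_of_mem hs, sig_mul_of_mem hs, map_mul]
      rfl
  have ha_sol : ∀ g t : G, t ∈ S → z (g, t) = A.ρ (g * t * g⁻¹) (a g) - a g := by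
    intro g t ht
    by_cases hg : g ∈ S
    · rw [hz g t hg, ha_S g hg, map_zero, sub_zero]
    · show _ = A.ρ (g * t * g⁻¹) (if g ∈ S then 0 else _) - (if g ∈ S then 0 else _)
      rw [if_neg hg]
      have h1 : z (g, t) = A.ρ (sig S g) (z (rep S g, t)) := by
        conv_lhs => rw [← sig_mul_rep (S := S) g]
        exact smul_of_vanish z hz (sig_mem g) _ _
      rw [h1, hsol (rep S g) t ht, map_sub, ← Module.End.mul_apply, ← map_mul,
        ← Module.End.mul_apply, ← map_mul]
      congr 2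
      unfold sig
      group
  refine ⟨subD z (fun g => - a g), subD_cohomologous _ _, ?_, ?_⟩
  · intro s g hs
    rw [subD_apply, hz s g hs, ha_eq s g hs, ha_S s hs, map_neg]
    abel
  · intro g s hs
    have hu : g * s * g⁻¹ ∈ S := Subgroup.Normal.conj_mem ‹S.Normal› _ hs g
    have h7 : a (g * s) = A.ρ (g * s * g⁻¹) (a g) := by
      have := ha_eq (g * s * g⁻¹) g hu
      rwa [show g * s * g⁻¹ * g = g * s by group] at this
    rw [subD_apply, ha_sol g s hs, ha_S s hs, h7, neg_zero, map_zero]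
    abel

/-- Invariance properties of a cocycle vanishing on `S × G` and on `G × S`. -/
theorem biinvariant (w : cocycles₂ A) (h1 : ∀ s g : G, s ∈ S → w (s, g) = 0)
    (h2 : ∀ g s : G, s ∈ S → w (g, s) = 0) :
    (∀ g h s : G, s ∈ S → w (g, h * s) = w (g, h)) ∧
    (∀ g h s : G, s ∈ S → w (g * s, h) = w (g, h)) ∧
    (∀ g h s : G, s ∈ S → A.ρ s (w (g, h)) = w (g, h)) := by
  have hR : ∀ g h s : G, s ∈ S → w (g, h * s) = w (g, h) := by
    intro g h s hs
    have := cocycle_id w g h s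
    rw [h2 _ s hs, h2 _ s hs, map_zero, zero_add, zero_add] at this
    exact this.symm
  have hL : ∀ g h s : G, s ∈ S → w (g * s, h) = w (g, h) := by
    intro g h s hs
    have := cocycle_id w g s h
    rw [h2 g s hs, h1 s h hs, map_zero, zero_add, add_zero] at this
    rw [this]
    have hc : h⁻¹ * s * h ∈ S := Subgroup.Normal.conj_mem' ‹S.Normal› _ hs h
    have := hR g h (h⁻¹ * s * h) hc
    rwa [show h * (h⁻¹ * s * h) = s * h by group] at this
  refine ⟨hR, hL, ?_⟩
  intro g h s hs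
  rw [← smul_of_vanish w h1 hs g h]
  have hc : g⁻¹ * s * g ∈ S := Subgroup.Normal.conj_mem' ‹S.Normal› _ hs g
  have := hL g h (g⁻¹ * s * g) hc
  rwa [show g * (g⁻¹ * s * g) = s * g by group] at this

/-- A biinvariant function only depends on cosets. -/
theorem eq_of_mk_eq (w : G × G → A)
    (hR : ∀ g h s : G, s ∈ S → w (g, h * s) = w (g, h))
    (hL : ∀ g h s : G, s ∈ S → w (g * s, h) = w (g, h)) {g g' h h' : G}
    (hg : (QuotientGroup.mk g' : G ⧸ S) = QuotientGroup.mk g)
    (hh : (QuotientGroup.mk h' : G ⧸ S) = QuotientGroup.mk h) : w (g', h') = w (g, h) := by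
  have h1 : g'⁻¹ * g ∈ S := QuotientGroup.eq.mp hg
  have h2 : h'⁻¹ * h ∈ S := QuotientGroup.eq.mp hh
  have e1 := hL g' h' _ h1
  have e2 := hR (g' * (g'⁻¹ * g)) h' _ h2
  rw [show g' * (g'⁻¹ * g) = g by group] at e1 e2
  rw [show h' * (h'⁻¹ * h) = h by group] at e2
  rw [← e1, ← e2]

/-- Step 3: a cocycle vanishing on `S × G` and on `G × S` is the inflation of a cocycle of
`G ⧸ S` with values in `A^S`. -/
theorem step3 (w : cocycles₂ A) (h1 : ∀ s g : G, s ∈ S → w (s, g) = 0)
    (h2 : ∀ g s : G, s ∈ S → w (g, s) = 0) :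
    ∃ f : cocycles₂ (A.quotientToInvariants S), ∀ g h : G,
      ((f ((g : G ⧸ S), (h : G ⧸ S)) : (A.quotientToInvariants S).V) : A.V) = w (g, h) := by
  obtain ⟨hR, hL, hI⟩ := biinvariant w h1 h2
  let f : (G ⧸ S) × (G ⧸ S) → (A.quotientToInvariants S).V := fun q =>
    ⟨w (q.1.out, q.2.out), fun s => hI _ _ s.1 s.2⟩
  have hf : ∀ g h : G, ((f ((g : G ⧸ S), (h : G ⧸ S)) : (A.quotientToInvariants S).V) : A.V) =
      w (g, h) := fun g h =>
    eq_of_mk_eq (fun p => (w p : A.V)) hR hL (QuotientGroup.out_eq' _) (QuotientGroup.out_eq' _)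
  have hmem : f ∈ cocycles₂ (A.quotientToInvariants S) := by
    rw [mem_cocycles₂_iff]
    intro a b c
    induction a using QuotientGroup.induction_on with | @H a =>
    induction b using QuotientGroup.induction_on with | @H b =>
    induction c using QuotientGroup.induction_on with | @H c =>
    apply Subtype.ext
    rw [← QuotientGroup.mk_mul, ← QuotientGroup.mk_mul]
    show ((f (_, _) : (A.quotientToInvariants S).V) : A.V) + ((f (_, _) :
      (A.quotientToInvariants S).V) : A.V) = A.ρ a ((f (_, _) : (A.quotientToInvariants S).V) : A.V)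
      + ((f (_, _) : (A.quotientToInvariants S).V) : A.V)
    rw [hf, hf, hf, hf]
    exact cocycle_id w a b c
  exact ⟨⟨f, hmem⟩, hf⟩

end steps

/-! ### The statements in `H²` -/

section main

variable [S.Normal]

/-- `IsZero H¹(S, A)` gives the concrete vanishing statement. -/
theorem h1Vanishes_of_isZero (h : Limits.IsZero (H1 (res S.subtype A))) : H1Vanishes A S := by
  intro χ hχ
  have hmem : χ ∈ cocycles₁ (res S.subtype A) := (mem_cocycles₁_iff (A := res S.subtype A) χ).2 hχ
  have h0 : H1π (res S.subtype A) ⟨χ, hmem⟩ = 0 := by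
    have := h.eq_of_tgt (H1π (res S.subtype A)) 0
    rw [this]
    rfl
  obtain ⟨a, ha⟩ := (H1π_eq_zero_iff _).1 h0
  refine ⟨a, fun u => ?_⟩
  have := congrFun ha u
  rw [d₀₁_hom_apply] at this
  exact this.symm

/-- The inflation of a 2-cocycle. -/
noncomputable abbrev infl : ModuleCat.of k (cocycles₂ (A.quotientToInvariants S)) ⟶
    ModuleCat.of k (cocycles₂ A) :=
  mapCocycles₂ (QuotientGroup.mk' S) (ofHom <| A.ρ.quotientToInvariants_lift S)

theorem infl_apply (f : cocycles₂ (A.quotientToInvariants S)) (g h : G) :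
    (infl A S f) (g, h) = ((f ((g : G ⧸ S), (h : G ⧸ S)) : (A.quotientToInvariants S).V) : A.V) :=
  rfl

/-- Cocycle form of exactness: a 2-cocycle whose restriction to `S` is a coboundary is
cohomologous to an inflation. -/
theorem exists_infl_cohomologous (hS : H1Vanishes A S) (x : cocycles₂ A) (b : S → A)
    (hb : ∀ s t : S, x ((s : G), (t : G)) = A.ρ s (b t) - b (s * t) + b s) :
    ∃ f : cocycles₂ (A.quotientToInvariants S), H2π A (infl A S f) = H2π A x := by
  obtain ⟨y, hy1, hy2⟩ := step0 x b hb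
  obtain ⟨z, hz1, hz2⟩ := step1 y hy2
  obtain ⟨w, hw1, hw2, hw3⟩ := step2 hS z hz2
  obtain ⟨f, hf⟩ := step3 w hw2 hw3
  refine ⟨f, ?_⟩
  have : infl A S f = w := cocycles₂_ext fun g h => by rw [infl_apply, hf]
  rw [this, hw1, hz1, hy1]

/-- Cocycle form of injectivity: if the inflation of `f` is a coboundary, so is `f`. -/
theorem coboundary_of_infl_coboundary (hS : H1Vanishes A S)
    (f : cocycles₂ (A.quotientToInvariants S)) (c : G → A)
    (hc : ∀ g h : G, A.ρ g (c h) - c (g * h) + c g =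
      ((f ((g : G ⧸ S), (h : G ⧸ S)) : (A.quotientToInvariants S).V) : A.V)) :
    ⇑f ∈ coboundaries₂ (A.quotientToInvariants S) := by
  -- notation
  set a₀ : A.V := ((f ((1 : G ⧸ S), (1 : G ⧸ S)) : (A.quotientToInvariants S).V) : A.V) with ha₀
  have ha₀inv : ∀ s : G, s ∈ S → A.ρ s a₀ = a₀ := fun s hs =>
    (f ((1 : G ⧸ S), (1 : G ⧸ S))).2 ⟨s, hs⟩
  have hmk1 : ∀ s : G, s ∈ S → ((s : G) : G ⧸ S) = 1 := fun s hs =>
    (QuotientGroup.eq_one_iff s).mpr hs
  have hf1 : ∀ g : G, ((f ((1 : G ⧸ S), (g : G ⧸ S)) : (A.quotientToInvariants S).V) : A.V) = a₀ :=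
    fun g => by rw [cocycles₂_map_one_fst f]
  have hf2 : ∀ g : G, ((f ((g : G ⧸ S), (1 : G ⧸ S)) : (A.quotientToInvariants S).V) : A.V) =
      A.ρ g a₀ := fun g => by
    rw [cocycles₂_map_one_snd f]
    rfl
  -- the crossed homomorphism on `S`
  obtain ⟨a, ha⟩ := hS (fun s => c s - a₀) (by
    intro u v
    have h1 := hc u v
    rw [hmk1 _ u.2, hmk1 _ v.2, ← ha₀] at h1
    have h2 := ha₀inv u u.2
    simp only [Subgroup.coe_mul, map_sub, h2]
    rw [← h1]
    abel)
  -- the corrected cochain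
  set c₁ : G → A.V := fun g => c g - (A.ρ g a - a) with hc₁
  have hc₁rel : ∀ g h : G, A.ρ g (c₁ h) - c₁ (g * h) + c₁ g =
      ((f ((g : G ⧸ S), (h : G ⧸ S)) : (A.quotientToInvariants S).V) : A.V) := by
    intro g h
    rw [← hc g h]
    simp only [hc₁, map_sub, map_mul, Module.End.mul_apply]
    abel
  have hc₁S : ∀ s : G, s ∈ S → c₁ s = a₀ := by
    intro s hs
    have := ha ⟨s, hs⟩
    simp only at this
    simp only [hc₁]
    rw [← this]
    abel
  have hR : ∀ g s : G, s ∈ S → c₁ (g * s) = c₁ g := by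
    intro g s hs
    have := hc₁rel g s
    rw [hmk1 s hs, hf2, hc₁S s hs] at this
    have h3 : c₁ g - c₁ (g * s) = 0 := by
      rw [← sub_eq_zero] at this
      rw [← this]
      abel
    exact (sub_eq_zero.mp h3).symm
  have hI : ∀ g s : G, s ∈ S → A.ρ s (c₁ g) = c₁ g := by
    intro g s hs
    have := hc₁rel s g
    rw [hmk1 s hs, hf1, hc₁S s hs] at this
    have hconj : g⁻¹ * s * g ∈ S := Subgroup.Normal.conj_mem' ‹S.Normal› _ hs g
    have h4 := hR g _ hconj
    rw [show g * (g⁻¹ * s * g) = s * g by group] at h4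
    rw [h4] at this
    have h5 : A.ρ s (c₁ g) - c₁ g = 0 := by
      rw [← sub_eq_zero] at this
      rw [← this]
      abel
    exact sub_eq_zero.mp h5
  have hout : ∀ g : G, c₁ ((g : G ⧸ S)).out = c₁ g := by
    intro g
    have h1 : (((g : G ⧸ S)).out)⁻¹ * g ∈ S := QuotientGroup.eq.mp (QuotientGroup.out_eq' _)
    have := hR ((g : G ⧸ S)).out _ h1
    rw [show ((g : G ⧸ S)).out * ((((g : G ⧸ S)).out)⁻¹ * g) = g by group] at this
    exact this.symm
  refine ⟨fun q => ⟨c₁ q.out, fun s => hI _ s.1 s.2⟩, ?_⟩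
  ext ⟨q₁, q₂⟩
  induction q₁ using QuotientGroup.induction_on with | @H g =>
  induction q₂ using QuotientGroup.induction_on with | @H h =>
  rw [d₁₂_hom_apply]
  show A.ρ g (c₁ _) - c₁ ((QuotientGroup.mk g * QuotientGroup.mk h : G ⧸ S)).out + c₁ _ = _
  rw [← QuotientGroup.mk_mul, hout, hout, hout]
  exact hc₁rel g h

/-- The short complex `H²(G ⧸ S, A^S) ⟶ H²(G, A) ⟶ H²(S, A)`. -/
@[simps X₁ X₂ X₃ f g]
noncomputable def H2InfRes : ShortComplex (ModuleCat k) where
  X₁ := groupCohomology (A.quotientToInvariants S) 2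
  X₂ := groupCohomology A 2
  X₃ := groupCohomology (res S.subtype A) 2
  f := map (QuotientGroup.mk' S) (ofHom <| A.ρ.quotientToInvariants_lift S) 2
  g := map S.subtype (𝟙 _) 2
  zero := by
    rw [← cancel_epi (H2π _)]
    ext x
    have h1 := H2π_comp_map_apply (QuotientGroup.mk' S)
      (ofHom <| A.ρ.quotientToInvariants_lift S) x
    have h2 := H2π_comp_map_apply S.subtype (𝟙 (res S.subtype A)) (infl A S x)
    simp only [ModuleCat.hom_comp, LinearMap.coe_comp, Function.comp_apply, ModuleCat.hom_zero,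
      LinearMap.zero_apply, Limits.comp_zero]
    rw [h1, h2, H2π_eq_zero_iff]
    refine ⟨fun _ => ((x ((1 : G ⧸ S), (1 : G ⧸ S)) : (A.quotientToInvariants S).V) : A.V), ?_⟩
    ext ⟨s, t⟩
    rw [d₁₂_hom_apply]
    have hs : ((s : G) : G ⧸ S) = 1 := (QuotientGroup.eq_one_iff _).mpr s.2
    have ht : ((t : G) : G ⧸ S) = 1 := (QuotientGroup.eq_one_iff _).mpr t.2
    show (A.ρ s) _ - _ + _ = ((x (((s : G) : G ⧸ S), ((t : G) : G ⧸ S)) :
      (A.quotientToInvariants S).V) : A.V)
    rw [hs, ht]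
    have := (x ((1 : G ⧸ S), (1 : G ⧸ S))).2 s
    simp only [MonoidHom.coe_comp, Subgroup.coe_subtype, Function.comp_apply] at this
    rw [this]
    abel

/-- Inflation `H²(G ⧸ S, A^S) ⟶ H²(G, A)` is injective when `H¹(S, A) = 0`. -/
theorem infl_injective (hS : H1Vanishes A S) :
    Function.Injective (map (QuotientGroup.mk' S) (ofHom <| A.ρ.quotientToInvariants_lift S) 2 :
      H2 (A.quotientToInvariants S) ⟶ H2 A) := by
  rw [injective_iff_map_eq_zero]
  intro x hx
  induction x using H2_induction_on with | @h x =>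
  rw [H2π_comp_map_apply (QuotientGroup.mk' S)] at hx
  obtain ⟨c, hc⟩ := (H2π_eq_zero_iff _).1 hx
  rw [H2π_eq_zero_iff]
  refine coboundary_of_infl_coboundary A S hS x c fun g h => ?_
  have := congrFun hc (g, h)
  rw [d₁₂_hom_apply] at this
  exact this

/-- Exactness at `H²(G, A)`, elementwise. -/
theorem exists_infl_eq_of_res_eq_zero (hS : H1Vanishes A S) (x : H2 A)
    (hx : (map S.subtype (𝟙 (res S.subtype A)) 2 : H2 A ⟶ H2 (res S.subtype A)) x = 0) :
    ∃ y : H2 (A.quotientToInvariants S),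
      (map (QuotientGroup.mk' S) (ofHom <| A.ρ.quotientToInvariants_lift S) 2 :
        H2 (A.quotientToInvariants S) ⟶ H2 A) y = x := by
  induction x using H2_induction_on with | @h x =>
  rw [H2π_comp_map_apply S.subtype] at hx
  obtain ⟨b, hb⟩ := (H2π_eq_zero_iff _).1 hx
  obtain ⟨f, hf⟩ := exists_infl_cohomologous A S hS x b (fun s t => by
    have := congrFun hb (s, t)
    rw [d₁₂_hom_apply] at this
    exact this.symm)
  refine ⟨H2π _ f, ?_⟩
  rw [H2π_comp_map_apply (QuotientGroup.mk' S)]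
  exact hf

theorem H2InfRes_mono (hS : H1Vanishes A S) : Mono (H2InfRes A S).f :=
  (ModuleCat.mono_iff_injective _).2 (infl_injective A S hS)

/-- `H²(G ⧸ S, A^S) ⟶ H²(G, A) ⟶ H²(S, A)` is exact when `H¹(S, A) = 0`. -/
theorem H2InfRes_exact (hS : H1Vanishes A S) : (H2InfRes A S).Exact := by
  rw [ShortComplex.moduleCat_exact_iff_ker_sub_range]
  intro x hx
  obtain ⟨y, hy⟩ := exists_infl_eq_of_res_eq_zero A S hS x (LinearMap.mem_ker.mp hx)
  exact ⟨y, hy⟩

end main

end Fermat.Agent.S55.Coh.InfRes2
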