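/-
S55 / cohomology toolbox (helper6): isomorphisms of pairs `(G, A : Rep k G)`.

`PairEquiv B A` = a group isomorphism `e : G' ≃* G` together with a `k`-linear equivalence
`φ : B ≃ₗ[k] A` with `φ (g • b) = e g • φ b`.  Such an isomorphism of pairs

* induces isomorphisms on all cohomology groups (`cohomologyIso`, from Mathlib's
  `groupCohomology.mapIso`), hence transfers `IsZero`, `Finite`, `Nat.card`;
* restricts to subgroups (`PairEquiv.res`, `PairEquiv.resComap`);
* passes to `(G ⧸ N, A^N)` (`PairEquiv.quot`).

This is the bookkeeping needed to apply class-type inductions (`Global/Devissage`,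
`Coh/H1Devissage`, `Local/UglyLemma`) to concrete families such as `(Gal(L/K), C_{L,T})`, which
are only closed under restriction / invariants UP TO ISOMORPHISM.  Mathlib only.
-/
import Mathlib

set_option autoImplicit false
set_option linter.dupNamespace false
set_option linter.unnecessarySimpa false

namespace Fermat.Agent.S55.Coh.PairEquiv

open CategoryTheory CategoryTheory.Limits groupCohomology Rep

universe u

variable {k : Type u} [CommRing k]

/-- An isomorphism of pairs `(G', B) ≅ (G, A)`. -/
structure PairEquiv {G' G : Type u} [Group G'] [Group G] (B : Rep k G') (A : Rep k G) where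
  /-- the group isomorphism -/
  e : G' ≃* G
  /-- the linear equivalence of the underlying modules -/
  φ : B.V ≃ₗ[k] A.V
  /-- equivariance -/
  comm : ∀ (g : G') (x : B.V), φ (B.ρ g x) = A.ρ (e g) (φ x)

namespace PairEquiv

variable {G'' G' G : Type u} [Group G''] [Group G'] [Group G]

/-- The identity. -/
def refl (A : Rep k G) : PairEquiv A A where
  e := MulEquiv.refl G
  φ := LinearEquiv.refl k A.V
  comm _ _ := rfl

/-- Inverse. -/
def symm {B : Rep k G'} {A : Rep k G} (h : PairEquiv B A) : PairEquiv A B where
  e := h.e.symm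
  φ := h.φ.symm
  comm g x := by
    apply h.φ.injective
    rw [h.comm, LinearEquiv.apply_symm_apply, LinearEquiv.apply_symm_apply,
      MulEquiv.apply_symm_apply]

/-- Composition. -/
def trans {C : Rep k G''} {B : Rep k G'} {A : Rep k G} (h₁ : PairEquiv C B)
    (h₂ : PairEquiv B A) : PairEquiv C A where
  e := h₁.e.trans h₂.e
  φ := h₁.φ.trans h₂.φ
  comm g x := by
    simp only [LinearEquiv.trans_apply, MulEquiv.trans_apply, h₁.comm, h₂.comm]

/-- An isomorphism of representations of the same group. -/
def ofIso {A B : Rep k G} (f : B ≅ A) : PairEquiv B A where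
  e := MulEquiv.refl G
  φ :=
    { toFun := fun x => f.hom.hom x
      invFun := fun x => f.inv.hom x
      map_add' := fun x y => map_add _ x y
      map_smul' := fun c x => map_smul _ c x
      left_inv := fun x => by
        have := congr($(f.hom_inv_id).hom x)
        simpa using this
      right_inv := fun x => by
        have := congr($(f.inv_hom_id).hom x)
        simpa using this }
  comm g x := by
    change f.hom.hom (B.ρ g x) = A.ρ g (f.hom.hom x)
    exact Rep.hom_comm_apply f.hom g x

/-- Restriction along a group isomorphism. -/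
def ofMulEquiv (e : G' ≃* G) (A : Rep k G) : PairEquiv (Rep.res (e : G' →* G) A) A where
  e := e
  φ := LinearEquiv.refl k A.V
  comm _ _ := rfl

/-- The induced isomorphisms in cohomology. -/
noncomputable def cohomologyIso {B : Rep k G'} {A : Rep k G} (h : PairEquiv B A) (n : ℕ) :
    groupCohomology B n ≅ groupCohomology A n :=
  groupCohomology.mapIso h.e h.φ (fun g => LinearMap.ext fun x => h.comm g x) n

theorem isZero_iff {B : Rep k G'} {A : Rep k G} (h : PairEquiv B A) (n : ℕ) :
    IsZero (groupCohomology B n) ↔ IsZero (groupCohomology A n) :=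
  ⟨fun hz => hz.of_iso (h.cohomologyIso n).symm, fun hz => hz.of_iso (h.cohomologyIso n)⟩

/-- The induced linear equivalence in cohomology. -/
noncomputable def cohomologyEquiv {B : Rep k G'} {A : Rep k G} (h : PairEquiv B A) (n : ℕ) :
    groupCohomology B n ≃ₗ[k] groupCohomology A n :=
  (h.cohomologyIso n).toLinearEquiv

theorem card_eq {B : Rep k G'} {A : Rep k G} (h : PairEquiv B A) (n : ℕ) :
    Nat.card (groupCohomology B n) = Nat.card (groupCohomology A n) :=
  Nat.card_congr (h.cohomologyEquiv n).toEquiv

theorem finite_iff {B : Rep k G'} {A : Rep k G} (h : PairEquiv B A) (n : ℕ) :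
    Finite (groupCohomology B n) ↔ Finite (groupCohomology A n) :=
  ⟨fun _ => Finite.of_equiv _ (h.cohomologyEquiv n).toEquiv,
    fun _ => Finite.of_equiv _ (h.cohomologyEquiv n).symm.toEquiv⟩

/-- Restriction to a subgroup `H' ≤ G'` and its image `H'.map e ≤ G`. -/
def res {B : Rep k G'} {A : Rep k G} (h : PairEquiv B A) (H' : Subgroup G') :
    PairEquiv (Rep.res H'.subtype B) (Rep.res (H'.map (h.e : G' →* G)).subtype A) where
  e := h.e.subgroupMap H'
  φ := h.φ
  comm g x := h.comm g.1 x

/-- Restriction to a subgroup `H ≤ G` and any subgroup `H' ≤ G'` with `H'.map e = H`. -/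
def resOfMapEq {B : Rep k G'} {A : Rep k G} (h : PairEquiv B A) (H' : Subgroup G')
    (H : Subgroup G) (hH : H'.map (h.e : G' →* G) = H) :
    PairEquiv (Rep.res H'.subtype B) (Rep.res H.subtype A) where
  e := (h.e.subgroupMap H').trans (MulEquiv.subgroupCongr hH)
  φ := h.φ
  comm g x := h.comm g.1 x

/-- Restriction to a subgroup `H ≤ G` and its preimage `H.comap e ≤ G'`. -/
def resComap {B : Rep k G'} {A : Rep k G} (h : PairEquiv B A) (H : Subgroup G) :
    PairEquiv (Rep.res (H.comap (h.e : G' →* G)).subtype B) (Rep.res H.subtype A) :=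
  h.resOfMapEq _ H (Subgroup.map_comap_eq_self_of_surjective h.e.surjective H)

/-- Passage to the invariants of a normal subgroup: `(G' ⧸ N', B^N') ≅ (G ⧸ N, A^N)` when
`N'.map e = N`. -/
def quot {B : Rep k G'} {A : Rep k G} (h : PairEquiv B A) (N' : Subgroup G') [N'.Normal]
    (N : Subgroup G) [N.Normal] (hN : N'.map (h.e : G' →* G) = N) :
    PairEquiv (B.quotientToInvariants N') (A.quotientToInvariants N) where
  e := QuotientGroup.congr N' N h.e hN
  φ :=
    { toFun := fun x => ⟨h.φ x.1, fun n => by
        obtain ⟨n', hn', hnn'⟩ : ∃ n' ∈ N', h.e n' = n.1 := by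
          have : n.1 ∈ N'.map (h.e : G' →* G) := hN ▸ n.2
          simpa using this
        have hx := x.2 ⟨n', hn'⟩
        change A.ρ n.1 (h.φ x.1) = h.φ x.1
        rw [← hnn', ← h.comm]
        exact congrArg h.φ hx⟩
      invFun := fun y => ⟨h.φ.symm y.1, fun n' => by
        have hn : h.e n'.1 ∈ N := hN ▸ Subgroup.mem_map_of_mem _ n'.2
        have hy := y.2 ⟨h.e n'.1, hn⟩
        change B.ρ n'.1 (h.φ.symm y.1) = h.φ.symm y.1
        apply h.φ.injective
        rw [h.comm, LinearEquiv.apply_symm_apply]
        exact hy⟩
      map_add' := fun x y => Subtype.ext (by simp)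
      map_smul' := fun c x => Subtype.ext (by simp)
      left_inv := fun x => Subtype.ext (by simp)
      right_inv := fun y => Subtype.ext (by simp) }
  comm g x := by
    induction g using QuotientGroup.induction_on with | @H g =>
    apply Subtype.ext
    rw [QuotientGroup.congr_mk]
    exact h.comm g x.1

end PairEquiv

end Fermat.Agent.S55.Coh.PairEquiv
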