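/-
S55 / Coh — identification of a "transition" map in group cohomology with Mathlib's inflation,
through an isomorphism of pairs (helper6).

Setting: `f : G →* G'` a group homomorphism, `S ⊴ G` (think `S = ker f`), `A : Rep k G`,
`A' : Rep k G'`, `t : Res_f A' ⟶ A` a transition morphism, and an isomorphism of pairs
`P : (G ⧸ S, A^S) ≅ (G', A')` (the DESCENT isomorphism) which is compatible with `f` and `t`:
`P.e (mk g) = f g` and `(P.φ.symm x : A) = t x`.  Then for every `n`

  `Hⁿ(f, t) = (P.cohomologyIso n).inv ≫ infl`,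

where `infl : Hⁿ(G ⧸ S, A^S) ⟶ Hⁿ(G, A)` is Mathlib's inflation.  Consequently, in degree `2` and
under `H¹(S, A) = 0`, `H²(f, t)` is injective with image the kernel of restriction to `S`
(`Tate/InfRes2`).

Application (Global block): `f = rnHom K F M`, `t = transCn K F M T`, `P` = descent;
`inflCn K F M T n = Hⁿ(f, t)`.
-/
import Mathlib
import Fermat.Agent.S55.Coh.PairEquiv
import Fermat.Agent.S55.Tate.InfRes2

set_option autoImplicit false
set_option linter.unusedSectionVars false

namespace Fermat.Agent.S55.Coh.InflCompat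

open CategoryTheory groupCohomology Rep
open Fermat.Agent.S55.Coh.PairEquiv
open Fermat.Agent.S55.Tate.InfRes2

universe u

variable {k : Type u} [CommRing k] {G G' : Type u} [Group G] [Group G']

/-- Mathlib's inflation `Hⁿ(G ⧸ S, A^S) ⟶ Hⁿ(G, A)` in degree `n` (for `n = 2` this is
`InfRes2.infl₂` by `rfl`). -/
noncomputable abbrev inflN (A : Rep k G) (S : Subgroup G) [S.Normal] (n : ℕ) :
    groupCohomology (A.quotientToInvariants S) n ⟶ groupCohomology A n :=
  map (QuotientGroup.mk' S) (ofHom <| A.ρ.quotientToInvariants_lift S) n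

theorem inflN_two (A : Rep k G) (S : Subgroup G) [S.Normal] : inflN A S 2 = infl₂ A S := rfl

variable {A : Rep k G} {A' : Rep k G'} (S : Subgroup G) [S.Normal]
  (f : G →* G') (t : res f A' ⟶ A) (P : PairEquiv (A.quotientToInvariants S) A')

/-- **Transition map = descent iso followed by inflation.** -/
theorem map_eq_inv_comp_inflN
    (he : ∀ g : G, P.e (QuotientGroup.mk g) = f g)
    (hφ : ∀ x : A', ((P.φ.symm x : A.quotientToInvariants S) : A) = t.hom x) (n : ℕ) :
    map f t n = (P.cohomologyIso n).inv ≫ inflN A S n := by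
  have hinv : (P.cohomologyIso n).inv = map (P.e : G ⧸ S →* G')
      (ofHom ⟨P.φ.symm, fun g => by
        rw [P.φ.toLinearMap_symm_comp_eq, ← LinearMap.comp_assoc]
        have hc : ∀ g, P.φ.toLinearMap ∘ₗ (A.quotientToInvariants S).ρ g =
            A'.ρ (P.e g) ∘ₗ P.φ.toLinearMap := fun g => LinearMap.ext fun x => P.comm g x
        simp [hc, LinearMap.comp_assoc]⟩) n := rfl
  rw [hinv, inflN, ← map_comp]
  refine map_congr ?_ ?_ n
  · ext g
    exact (he g).symm
  · ext x
    exact (hφ x).symm

/-- The two maps have the same range. -/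
theorem range_map_eq_range_inflN
    (he : ∀ g : G, P.e (QuotientGroup.mk g) = f g)
    (hφ : ∀ x : A', ((P.φ.symm x : A.quotientToInvariants S) : A) = t.hom x) (n : ℕ) :
    LinearMap.range (map f t n).hom = LinearMap.range (inflN A S n).hom := by
  rw [map_eq_inv_comp_inflN S f t P he hφ n]
  apply le_antisymm
  · rintro _ ⟨x, rfl⟩
    exact ⟨(P.cohomologyIso n).inv.hom x, rfl⟩
  · rintro _ ⟨y, rfl⟩
    refine ⟨(P.cohomologyIso n).hom.hom y, ?_⟩
    have h : (P.cohomologyIso n).inv.hom ((P.cohomologyIso n).hom.hom y) = y := by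
      simp
    simp only [ModuleCat.hom_comp, LinearMap.coe_comp, Function.comp_apply]
    rw [h]

/-- **Injectivity of the transition map in degree `2`** when `H¹(S, A) = 0`. -/
theorem map_two_injective (h1 : H1ResTrivial A S)
    (he : ∀ g : G, P.e (QuotientGroup.mk g) = f g)
    (hφ : ∀ x : A', ((P.φ.symm x : A.quotientToInvariants S) : A) = t.hom x) :
    Function.Injective (map f t 2).hom := by
  rw [map_eq_inv_comp_inflN S f t P he hφ 2]
  have hinj : Function.Injective (P.cohomologyIso 2).inv.hom := by
    intro x y hxy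
    have hx : (P.cohomologyIso 2).hom.hom ((P.cohomologyIso 2).inv.hom x) = x := by
      simp
    have hy : (P.cohomologyIso 2).hom.hom ((P.cohomologyIso 2).inv.hom y) = y := by
      simp
    rw [← hx, ← hy, hxy]
  simp only [ModuleCat.hom_comp, LinearMap.coe_comp]
  exact (infl₂_injective h1).comp hinj

/-- The image of the transition map in degree `2` is killed by restriction to `S`. -/
theorem rest₂_map_two
    (he : ∀ g : G, P.e (QuotientGroup.mk g) = f g)
    (hφ : ∀ x : A', ((P.φ.symm x : A.quotientToInvariants S) : A) = t.hom x)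
    (x : groupCohomology A' 2) :
    (rest₂ A S).hom ((map f t 2).hom x) = 0 := by
  rw [map_eq_inv_comp_inflN S f t P he hφ 2]
  simp only [ModuleCat.hom_comp, LinearMap.coe_comp, Function.comp_apply]
  have := congr($(infl₂_comp_rest₂ (A := A) (S := S)).hom ((P.cohomologyIso 2).inv.hom x))
  simpa using this

/-- **Exactness**: when `H¹(S, A) = 0`, a class of `H²(G, A)` restricting to `0` on `S` comes from
`H²(G', A')` through the transition map. -/
theorem ker_rest₂_le_range_map_two (h1 : H1ResTrivial A S)
    (he : ∀ g : G, P.e (QuotientGroup.mk g) = f g)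
    (hφ : ∀ x : A', ((P.φ.symm x : A.quotientToInvariants S) : A) = t.hom x) :
    LinearMap.ker (rest₂ A S).hom ≤ LinearMap.range (map f t 2).hom := by
  rw [range_map_eq_range_inflN S f t P he hφ 2]
  exact ker_rest₂_le_range_infl₂ h1

end Fermat.Agent.S55.Coh.InflCompat
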