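/-
S55 / Coh (helper92), piece `M.locS.sameCarrier`: TWO MODELS OF THE SAME EXTENSION INSIDE A BIG FIELD.

`Ω` a field, `F₁`, `F₂` fields with `Algebra F_i Ω`, `E₁ : IntermediateField F₁ Ω`,
`E₂ : IntermediateField F₂ Ω` such that `F₁`, `F₂` have the same image in `Ω` (`hF`) and `E₁`, `E₂`
are the same subset of `Ω` (`hE`).  Then

* `ringEquiv : E₁ ≃+* E₂` (identity on elements of `Ω`),
* `galEquiv : (E₁ ≃ₐ[F₁] E₁) ≃* (E₂ ≃ₐ[F₂] E₂)` (same action on elements of `Ω`: `coe_galEquiv`),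
* `pairSame : PairEquiv (Rep.ofAlgebraAutOnUnits F₁ E₁) (Rep.ofAlgebraAutOnUnits F₂ E₂)`.

Use (ROW LOC-S): `F₁ = Kloc K q 𝔪` (abstract completion, field model `genField e` of
`Middle/SemilocalCompare.lean` / `Coh/SemilocalExplicit.lean`) versus
`F₂ = baseField q (Dloc P q t)`, `E₂ = levelField q (levelSub P q t N)` (`LM/DlocLevelMap.lean`).
-/
import Mathlib
import Fermat.Agent.S55.Coh.PairEquiv

set_option autoImplicit false
set_option linter.unusedSectionVars false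

open CategoryTheory

namespace Fermat.Agent.S55.Coh.PairSameCarrier

open Fermat.Agent.S55.Coh.PairEquiv

variable {Ω : Type} [Field Ω] {F₁ F₂ : Type} [Field F₁] [Field F₂] [Algebra F₁ Ω] [Algebra F₂ Ω]
variable (E₁ : IntermediateField F₁ Ω) (E₂ : IntermediateField F₂ Ω)
variable (hF : Set.range (algebraMap F₁ Ω) = Set.range (algebraMap F₂ Ω))
variable (hE : (E₁ : Set Ω) = (E₂ : Set Ω))

include hE in
theorem mem_iff (x : Ω) : x ∈ E₁ ↔ x ∈ E₂ := by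
  have := congrArg (fun s : Set Ω => x ∈ s) hE
  simpa using this

/-- the identity on elements of `Ω`, as a ring isomorphism `E₁ ≃+* E₂`. -/
def ringEquiv : E₁ ≃+* E₂ where
  toFun x := ⟨x.1, (mem_iff E₁ E₂ hE x.1).1 x.2⟩
  invFun y := ⟨y.1, (mem_iff E₁ E₂ hE y.1).2 y.2⟩
  left_inv _ := rfl
  right_inv _ := rfl
  map_mul' _ _ := rfl
  map_add' _ _ := rfl

@[simp] theorem coe_ringEquiv (x : E₁) : ((ringEquiv E₁ E₂ hE x : E₂) : Ω) = (x : Ω) := rfl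

@[simp] theorem coe_ringEquiv_symm (y : E₂) : (((ringEquiv E₁ E₂ hE).symm y : E₁) : Ω) = (y : Ω) :=
  rfl

include hF in
theorem exists_algebraMap_eq (c : F₂) : ∃ c₁ : F₁, algebraMap F₁ Ω c₁ = algebraMap F₂ Ω c := by
  have : algebraMap F₂ Ω c ∈ Set.range (algebraMap F₁ Ω) := by
    rw [hF]; exact ⟨c, rfl⟩
  exact this

include hF in
theorem exists_algebraMap_eq' (c : F₁) : ∃ c₂ : F₂, algebraMap F₂ Ω c₂ = algebraMap F₁ Ω c := by
  have : algebraMap F₁ Ω c ∈ Set.range (algebraMap F₂ Ω) := by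
    rw [← hF]; exact ⟨c, rfl⟩
  exact this

/-- transport of an automorphism of `E₁/F₁` to `E₂/F₂`. -/
def galMap (σ : E₁ ≃ₐ[F₁] E₁) : E₂ ≃ₐ[F₂] E₂ :=
  { ((ringEquiv E₁ E₂ hE).symm.trans ((σ : E₁ ≃+* E₁).trans (ringEquiv E₁ E₂ hE))) with
    commutes' := fun c => by
      obtain ⟨c₁, hc₁⟩ := exists_algebraMap_eq hF c
      apply Subtype.ext
      have h1 : ((ringEquiv E₁ E₂ hE).symm (algebraMap F₂ E₂ c) : E₁) = algebraMap F₁ E₁ c₁ := by
        apply Subtype.ext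
        exact hc₁.symm
      change ((ringEquiv E₁ E₂ hE (σ ((ringEquiv E₁ E₂ hE).symm (algebraMap F₂ E₂ c))) : E₂) : Ω) =
        ((algebraMap F₂ E₂ c : E₂) : Ω)
      rw [h1, σ.commutes, coe_ringEquiv]
      exact hc₁ }

theorem coe_galMap (σ : E₁ ≃ₐ[F₁] E₁) (y : E₂) :
    ((galMap E₁ E₂ hF hE σ y : E₂) : Ω) = ((σ ((ringEquiv E₁ E₂ hE).symm y) : E₁) : Ω) := rfl


/-- **the Galois groups of the two models are isomorphic** (same action on elements of `Ω`). -/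
def galEquiv : (E₁ ≃ₐ[F₁] E₁) ≃* (E₂ ≃ₐ[F₂] E₂) where
  toFun := galMap E₁ E₂ hF hE
  invFun := galMap E₂ E₁ hF.symm hE.symm
  left_inv σ := by
    ext x
    rfl
  right_inv τ := by
    ext y
    rfl
  map_mul' σ τ := by
    ext y
    rfl

theorem coe_galEquiv (σ : E₁ ≃ₐ[F₁] E₁) (y : E₂) :
    ((galEquiv E₁ E₂ hF hE σ y : E₂) : Ω) = ((σ ((ringEquiv E₁ E₂ hE).symm y) : E₁) : Ω) := rfl

theorem coe_galEquiv' (σ : E₁ ≃ₐ[F₁] E₁) (x : E₁) :
    ((galEquiv E₁ E₂ hF hE σ (ringEquiv E₁ E₂ hE x) : E₂) : Ω) = ((σ x : E₁) : Ω) := rfl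

theorem coe_galEquiv_symm (τ : E₂ ≃ₐ[F₂] E₂) (x : E₁) :
    (((galEquiv E₁ E₂ hF hE).symm τ x : E₁) : Ω) = ((τ (ringEquiv E₁ E₂ hE x) : E₂) : Ω) := rfl

/-- the units of the two models. -/
noncomputable def unitsEquiv : Additive E₁ˣ ≃ₗ[ℤ] Additive E₂ˣ :=
  (MulEquiv.toAdditive (Units.mapEquiv ((ringEquiv E₁ E₂ hE : E₁ ≃+* E₂) : E₁ ≃* E₂))).toIntLinearEquiv

theorem coe_unitsEquiv (u : Additive E₁ˣ) :
    (((Additive.toMul (unitsEquiv E₁ E₂ hE u) : E₂ˣ) : E₂) : Ω) =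
      (((Additive.toMul u : E₁ˣ) : E₁) : Ω) := rfl

/-- **the two models give isomorphic pairs** `(Gal(E₁/F₁), E₁ˣ) ≅ (Gal(E₂/F₂), E₂ˣ)`. -/
noncomputable def pairSame :
    PairEquiv (Rep.ofAlgebraAutOnUnits F₁ E₁) (Rep.ofAlgebraAutOnUnits F₂ E₂) where
  e := galEquiv E₁ E₂ hF hE
  φ := unitsEquiv E₁ E₂ hE
  comm σ u := by
    apply Additive.toMul.injective
    apply Units.ext
    apply Subtype.ext
    rfl

theorem pairSame_e (σ : E₁ ≃ₐ[F₁] E₁) : (pairSame E₁ E₂ hF hE).e σ = galEquiv E₁ E₂ hF hE σ := rfl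

theorem pairSame_φ (u : Additive E₁ˣ) : (pairSame E₁ E₂ hF hE).φ u = unitsEquiv E₁ E₂ hE u := rfl

end Fermat.Agent.S55.Coh.PairSameCarrier
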