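/-
S55 / Coh / SemilocalExplicit (helper39) — EXPLICIT semilocal Shapiro for unit groups.

Supplier file for ROW (LOC-S) of Middle (helper14): the abstract isomorphisms
`SemilocalCoh.shapiroIso`, `SemilocalH3.semilocalIso` are identified with the concrete map
"restrict to the decomposition group `D`, then push the units along `π : B → E`", i.e. with ONE
`groupCohomology.map D.subtype φ n`, and that map is bijective in degrees `1, 2`.
-/
import Mathlib
import Fermat.Agent.S55.Global.SemilocalH3
import Fermat.Agent.S55.Coh.ShapiroExplicit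
import Fermat.Agent.S55.Middle.SemilocalCompare

set_option autoImplicit false
set_option linter.unusedSectionVars false
set_option linter.style.haveILetI false

namespace Fermat.Agent.S55.Coh.SemilocalExplicit

open CategoryTheory groupCohomology
open scoped TensorProduct Pointwise
open Fermat.Agent.S55.Global.SemilocalCoh
open Fermat.Agent.S55.Global.SemilocalDecomp
open Fermat.Agent.S55.Coh.ShapiroExplicit

/-! ### (A) abstract: helper1's `IsSemilocal D π` -/

section Abstract

variable {G : Type} [Group G] {B : Type} [CommRing B] [MulSemiringAction G B]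
  {D : Subgroup G} {E : Type} [CommRing E] [MulSemiringAction D E] {π : B →+* E}
  [MulDistribMulAction G Bˣ] [MulDistribMulAction D Eˣ]

/-- Restriction to `D` followed by `π` on units: `Res_D Bˣ ⟶ Eˣ`. -/
noncomputable def prHom (h : IsSemilocal D π)
    (hB : ∀ (g : G) (u : Bˣ), ((g • u : Bˣ) : B) = g • (u : B))
    (hE : ∀ (d : D) (e : Eˣ), ((d • e : Eˣ) : E) = d • (e : E)) :
    Rep.res D.subtype (Rep.ofMulDistribMulAction G Bˣ) ⟶ Rep.ofMulDistribMulAction D Eˣ :=
  evalOfIso (unitsIso h hB hE)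

theorem prHom_apply (h : IsSemilocal D π)
    (hB : ∀ (g : G) (u : Bˣ), ((g • u : Bˣ) : B) = g • (u : B))
    (hE : ∀ (d : D) (e : Eˣ), ((d • e : Eˣ) : E) = d • (e : E)) (a : Additive Bˣ) :
    (prHom h hB hE).hom a = Additive.ofMul (Units.map (π : B →* E) (Additive.toMul a)) := by
  show Additive.ofMul (Units.map (π : B →* E) ((1 : G) • Additive.toMul a)) = _
  rw [one_smul]

/-- **Explicit semilocal Shapiro, degree 2**: restriction to `D` + `π` is bijective
`H²(G, Bˣ) → H²(D, Eˣ)`. -/
theorem prMap_bijective₂ (h : IsSemilocal D π)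
    (hB : ∀ (g : G) (u : Bˣ), ((g • u : Bˣ) : B) = g • (u : B))
    (hE : ∀ (d : D) (e : Eˣ), ((d • e : Eˣ) : E) = d • (e : E)) :
    Function.Bijective (groupCohomology.map D.subtype (prHom h hB hE) 2) :=
  evalOfIso_bijective₂ (unitsIso h hB hE)

/-- **Explicit semilocal Shapiro, degree 1.** -/
theorem prMap_bijective₁ (h : IsSemilocal D π)
    (hB : ∀ (g : G) (u : Bˣ), ((g • u : Bˣ) : B) = g • (u : B))
    (hE : ∀ (d : D) (e : Eˣ), ((d • e : Eˣ) : E) = d • (e : E)) :
    Function.Bijective (groupCohomology.map D.subtype (prHom h hB hE) 1) :=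
  evalOfIso_bijective₁ (unitsIso h hB hE)

end Abstract

/-! ### (A') abstract Galois form: `D ≃* Gal(E'/F)` with `ε : E ≃+* E'` equivariant -/

section AbstractGalois

variable {G : Type} [Group G] {B : Type} [CommRing B] [MulSemiringAction G B]
  {D : Subgroup G} {E : Type} [CommRing E] [MulSemiringAction D E] {π : B →+* E}
  [MulDistribMulAction G Bˣ] [MulDistribMulAction D Eˣ]
  {F E' : Type} [Field F] [Field E'] [Algebra F E']

/-- `Eˣ ≃ E'ˣ` (additive notation, `ℤ`-linear) induced by a ring isomorphism. -/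
noncomputable def unitsLinEquiv (ε : E ≃+* E') : Additive Eˣ ≃ₗ[ℤ] Additive E'ˣ :=
  (MulEquiv.toAdditive (Units.mapEquiv (ε : E ≃* E'))).toIntLinearEquiv

theorem unitsLinEquiv_apply (ε : E ≃+* E') (a : Additive Eˣ) :
    unitsLinEquiv ε a = Additive.ofMul (Units.map ((ε : E →+* E') : E →* E') (Additive.toMul a)) :=
  rfl

/-- The transport isomorphism `Hⁿ(D, Eˣ) ≅ Hⁿ(Gal(E'/F), E'ˣ)` along `e : D ≃* Gal(E'/F)` and an
equivariant ring isomorphism `ε : E ≃+* E'`. -/
noncomputable def transportIso (ε : E ≃+* E') (e : D ≃* (E' ≃ₐ[F] E'))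
    (hE : ∀ (d : D) (y : Eˣ), ((d • y : Eˣ) : E) = d • (y : E))
    (hε : ∀ (d : D) (y : E), ε (d • y) = e d (ε y)) (n : ℕ) :
    groupCohomology (Rep.ofMulDistribMulAction D Eˣ) n ≅
      groupCohomology (Rep.ofAlgebraAutOnUnits F E') n :=
  groupCohomology.mapIso (A := Rep.ofAlgebraAutOnUnits F E')
    (B := Rep.ofMulDistribMulAction D Eˣ) e (unitsLinEquiv ε)
    (by
      intro d
      refine LinearMap.ext fun (a : Additive Eˣ) => ?_
      apply Additive.toMul.injective
      apply Units.ext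
      show ε (((d • (Additive.toMul a : Eˣ) : Eˣ) : E)) = e d (ε ((Additive.toMul a : Eˣ) : E))
      rw [hE, hε]) n

/-- The coefficient map of `transportIso`: `Res_{e⁻¹} Eˣ ⟶ E'ˣ`, `u ↦ ε u`. -/
noncomputable def transportHom (ε : E ≃+* E') (e : D ≃* (E' ≃ₐ[F] E'))
    (hE : ∀ (d : D) (y : Eˣ), ((d • y : Eˣ) : E) = d • (y : E))
    (hε : ∀ (d : D) (y : E), ε (d • y) = e d (ε y)) :
    Rep.res (e.symm : (E' ≃ₐ[F] E') →* D) (Rep.ofMulDistribMulAction D Eˣ) ⟶
      Rep.ofAlgebraAutOnUnits F E' :=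
  Rep.ofHom
    { toLinearMap := (unitsLinEquiv ε : Additive Eˣ →ₗ[ℤ] Additive E'ˣ)
      isIntertwining' := fun σ => by
        refine LinearMap.ext fun (a : Additive Eˣ) => ?_
        apply Additive.toMul.injective
        apply Units.ext
        show ε (((e.symm σ • (Additive.toMul a : Eˣ) : Eˣ) : E)) =
          σ (ε ((Additive.toMul a : Eˣ) : E))
        rw [hE, hε, MulEquiv.apply_symm_apply] }

theorem transportHom_apply (ε : E ≃+* E') (e : D ≃* (E' ≃ₐ[F] E'))
    (hE : ∀ (d : D) (y : Eˣ), ((d • y : Eˣ) : E) = d • (y : E))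
    (hε : ∀ (d : D) (y : E), ε (d • y) = e d (ε y)) (a : Additive Eˣ) :
    (transportHom ε e hE hε).hom a =
      Additive.ofMul (Units.map ((ε : E →+* E') : E →* E') (Additive.toMul a)) := rfl

theorem transportIso_hom (ε : E ≃+* E') (e : D ≃* (E' ≃ₐ[F] E'))
    (hE : ∀ (d : D) (y : Eˣ), ((d • y : Eˣ) : E) = d • (y : E))
    (hε : ∀ (d : D) (y : E), ε (d • y) = e d (ε y)) (n : ℕ) :
    (transportIso ε e hE hε n).hom =
      groupCohomology.map (e.symm : (E' ≃ₐ[F] E') →* D) (transportHom ε e hE hε) n := rfl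

theorem transportMap_bijective (ε : E ≃+* E') (e : D ≃* (E' ≃ₐ[F] E'))
    (hE : ∀ (d : D) (y : Eˣ), ((d • y : Eˣ) : E) = d • (y : E))
    (hε : ∀ (d : D) (y : E), ε (d • y) = e d (ε y)) (n : ℕ) :
    Function.Bijective
      (groupCohomology.map (e.symm : (E' ≃ₐ[F] E') →* D) (transportHom ε e hE hε) n) := by
  rw [← transportIso_hom]
  exact ConcreteCategory.bijective_of_isIso (transportIso ε e hE hε n).hom

/-- **The Galois form of the localisation map on coefficients**: restrict along
`Gal(E'/F) ≃ D ↪ G` and push units along `ε ∘ π : B → E'`. -/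
noncomputable def galHom (h : IsSemilocal D π)
    (hB : ∀ (g : G) (u : Bˣ), ((g • u : Bˣ) : B) = g • (u : B))
    (hE : ∀ (d : D) (y : Eˣ), ((d • y : Eˣ) : E) = d • (y : E))
    (ε : E ≃+* E') (e : D ≃* (E' ≃ₐ[F] E'))
    (hε : ∀ (d : D) (y : E), ε (d • y) = e d (ε y)) :
    Rep.res (D.subtype.comp (e.symm : (E' ≃ₐ[F] E') →* D)) (Rep.ofMulDistribMulAction G Bˣ) ⟶
      Rep.ofAlgebraAutOnUnits F E' :=
  (Rep.resFunctor (e.symm : (E' ≃ₐ[F] E') →* D)).map (prHom h hB hE) ≫ transportHom ε e hE hε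

theorem galHom_apply (h : IsSemilocal D π)
    (hB : ∀ (g : G) (u : Bˣ), ((g • u : Bˣ) : B) = g • (u : B))
    (hE : ∀ (d : D) (y : Eˣ), ((d • y : Eˣ) : E) = d • (y : E))
    (ε : E ≃+* E') (e : D ≃* (E' ≃ₐ[F] E'))
    (hε : ∀ (d : D) (y : E), ε (d • y) = e d (ε y)) (a : Additive Bˣ) :
    (galHom h hB hE ε e hε).hom a =
      Additive.ofMul (Units.map (((ε : E →+* E').comp π : B →+* E') : B →* E')
        (Additive.toMul a)) := by
  show (transportHom ε e hE hε).hom ((prHom h hB hE).hom a) = _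
  rw [prHom_apply, transportHom_apply]
  rfl

theorem galMap_eq (h : IsSemilocal D π)
    (hB : ∀ (g : G) (u : Bˣ), ((g • u : Bˣ) : B) = g • (u : B))
    (hE : ∀ (d : D) (y : Eˣ), ((d • y : Eˣ) : E) = d • (y : E))
    (ε : E ≃+* E') (e : D ≃* (E' ≃ₐ[F] E'))
    (hε : ∀ (d : D) (y : E), ε (d • y) = e d (ε y)) (n : ℕ) :
    groupCohomology.map (D.subtype.comp (e.symm : (E' ≃ₐ[F] E') →* D)) (galHom h hB hE ε e hε) n =
      groupCohomology.map D.subtype (prHom h hB hE) n ≫
        groupCohomology.map (e.symm : (E' ≃ₐ[F] E') →* D) (transportHom ε e hE hε) n :=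
  groupCohomology.map_comp D.subtype (e.symm : (E' ≃ₐ[F] E') →* D) (prHom h hB hE)
    (transportHom ε e hE hε) n

/-- **Explicit semilocal Shapiro, Galois form, degree 2**:
`H²(G, Bˣ) → H²(Gal(E'/F), E'ˣ)` is bijective. -/
theorem galMap_bijective₂ (h : IsSemilocal D π)
    (hB : ∀ (g : G) (u : Bˣ), ((g • u : Bˣ) : B) = g • (u : B))
    (hE : ∀ (d : D) (y : Eˣ), ((d • y : Eˣ) : E) = d • (y : E))
    (ε : E ≃+* E') (e : D ≃* (E' ≃ₐ[F] E'))
    (hε : ∀ (d : D) (y : E), ε (d • y) = e d (ε y)) :
    Function.Bijective (groupCohomology.map (D.subtype.comp (e.symm : (E' ≃ₐ[F] E') →* D))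
      (galHom h hB hE ε e hε) 2) := by
  rw [galMap_eq]
  have := Function.Bijective.comp (transportMap_bijective ε e hE hε 2) (prMap_bijective₂ h hB hE)
  convert this using 1
  funext x
  rfl

/-- **Explicit semilocal Shapiro, Galois form, degree 1.** -/
theorem galMap_bijective₁ (h : IsSemilocal D π)
    (hB : ∀ (g : G) (u : Bˣ), ((g • u : Bˣ) : B) = g • (u : B))
    (hE : ∀ (d : D) (y : Eˣ), ((d • y : Eˣ) : E) = d • (y : E))
    (ε : E ≃+* E') (e : D ≃* (E' ≃ₐ[F] E'))
    (hε : ∀ (d : D) (y : E), ε (d • y) = e d (ε y)) :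
    Function.Bijective (groupCohomology.map (D.subtype.comp (e.symm : (E' ≃ₐ[F] E') →* D))
      (galHom h hB hE ε e hε) 1) := by
  rw [galMap_eq]
  have := Function.Bijective.comp (transportMap_bijective ε e hE hε 1) (prMap_bijective₁ h hB hE)
  convert this using 1
  funext x
  rfl

end AbstractGalois

/-! ### (B) `B = L ⊗[K] F`, `m` a maximal ideal, `D = Stab m`, `E = B ⧸ m` -/

section Tensor

attribute [local instance] Algebra.TensorProduct.rightAlgebra
attribute [local instance] stabQuotAction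
attribute [local instance] Units.mulDistribMulActionRight

variable {K L F G : Type} [Field K] [Field L] [Field F] [Algebra K L] [Algebra K F]
  [Group G] [Finite G] [MulSemiringAction G L] [IsGaloisGroup G K L]
  [MulSemiringAction G (L ⊗[K] F)]
  (hact : ∀ (g : G) (l : L) (f : F), g • (l ⊗ₜ[K] f) = (g • l) ⊗ₜ[K] f)
  (m : Ideal (L ⊗[K] F)) [hm : m.IsMaximal]

include hact in
/-- helper1's semilocal datum for `L ⊗[K] F` (general Galois group `G`). -/
theorem isSemilocal_tensor :
    IsSemilocal (MulAction.stabilizer G m) (Ideal.Quotient.mk m) where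
  equivariant d b := (stabQuotAction_mk m d b).symm
  injective _ _ h := Global.SemilocalTensor.phi_injective hact m (funext h)
  surjective f hf := Global.SemilocalTensor.exists_phi_eq hact m f hf

/-- `Res_{Stab m} (L ⊗[K] F)ˣ ⟶ ((L ⊗[K] F) ⧸ m)ˣ`, `u ↦ u mod m`. -/
noncomputable def quotHom :
    Rep.res (MulAction.stabilizer G m).subtype (Rep.ofMulDistribMulAction G (L ⊗[K] F)ˣ) ⟶
      Rep.ofMulDistribMulAction (MulAction.stabilizer G m) ((L ⊗[K] F) ⧸ m)ˣ :=
  prHom (isSemilocal_tensor hact m) (fun _ _ => rfl) (fun _ _ => rfl)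

theorem quotHom_apply (a : Additive (L ⊗[K] F)ˣ) :
    (quotHom hact m).hom a =
      Additive.ofMul (Units.map ((Ideal.Quotient.mk m : L ⊗[K] F →+* _) : L ⊗[K] F →* _)
        (Additive.toMul a)) :=
  prHom_apply _ _ _ a

/-- **Explicit semilocal Shapiro for `(L ⊗[K] F)ˣ`, degree 2.** -/
theorem quotMap_bijective₂ :
    Function.Bijective
      (groupCohomology.map (MulAction.stabilizer G m).subtype (quotHom hact m) 2) :=
  prMap_bijective₂ _ _ _

/-- **Explicit semilocal Shapiro for `(L ⊗[K] F)ˣ`, degree 1.** -/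
theorem quotMap_bijective₁ :
    Function.Bijective
      (groupCohomology.map (MulAction.stabilizer G m).subtype (quotHom hact m) 1) :=
  prMap_bijective₁ _ _ _

end Tensor

/-! ### (C) helper79's model: `e : L →ₐ[k] Ω`, `m = kerIdeal e`, `E' = genField e = F(e L) ⊆ Ω` -/

section GenField

open Fermat.Agent.S55.Middle.SemilocalCompare

attribute [local instance] Algebra.TensorProduct.rightAlgebra
attribute [local instance] stabQuotAction
attribute [local instance] Units.mulDistribMulActionRight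

variable {k F Ω L G : Type} [Field k] [Field F] [Field Ω] [Field L] [Algebra k F] [Algebra F Ω]
  [Algebra k Ω] [IsScalarTower k F Ω] [Algebra k L] [Algebra.IsAlgebraic k L]
  [Group G] [MulSemiringAction G L] [SMulCommClass G k L]
  [MulSemiringAction G (L ⊗[k] F)]
  (hact : ∀ (g : G) (l : L) (f : F), g • (l ⊗ₜ[k] f) = (g • l) ⊗ₜ[k] f)
  [Finite G] [IsGaloisGroup G k L] (e : L →ₐ[k] Ω)

/-- The group homomorphism `Gal(F(eL)/F) ≃ Stab(𝔪_e) ↪ G`. -/
noncomputable def genGroupHom :
    (genField (F := F) e ≃ₐ[F] genField (F := F) e) →* G :=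
  (MulAction.stabilizer G (kerIdeal (F := F) e)).subtype.comp
    ((stabEquiv hact e).symm :
      (genField (F := F) e ≃ₐ[F] genField (F := F) e) →*
        MulAction.stabilizer G (kerIdeal (F := F) e))

/-- `genGroupHom σ` is the unique element `g` of `G` with `e (g l) = σ (e l)`. -/
theorem stabToGal_genGroupHom (σ : genField (F := F) e ≃ₐ[F] genField (F := F) e) :
    stabToGal hact e ((stabEquiv hact e).symm σ) = σ := by
  rw [← stabEquiv_apply, MulEquiv.apply_symm_apply]

theorem genGroupHom_spec (σ : genField (F := F) e ≃ₐ[F] genField (F := F) e) (l : L) :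
    e (genGroupHom hact e σ • l) = ((σ (toGen e l) : genField (F := F) e) : Ω) := by
  have h := coe_stabToGal_toGen hact e ((stabEquiv hact e).symm σ) l
  rw [stabToGal_genGroupHom] at h
  exact h.symm

theorem quotEquiv_equivariant (d : MulAction.stabilizer G (kerIdeal (F := F) e))
    (y : (L ⊗[k] F) ⧸ kerIdeal (F := F) e) :
    (quotEquiv e).toRingEquiv (d • y) = stabEquiv hact e d ((quotEquiv e).toRingEquiv y) :=
  quotEquiv_smul hact e d y

/-- **Coefficient map of the localisation at `e`**: restrict along `Gal(F(eL)/F) → G`, push units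
along `ψ_e : L ⊗[k] F → F(e L)`, `l ⊗ c ↦ e l * c`. -/
noncomputable def genHom :
    Rep.res (genGroupHom hact e) (Rep.ofMulDistribMulAction G (L ⊗[k] F)ˣ) ⟶
      Rep.ofAlgebraAutOnUnits F (genField (F := F) e) :=
  galHom (isSemilocal_tensor hact (kerIdeal (F := F) e)) (fun _ _ => rfl) (fun _ _ => rfl)
    (quotEquiv e).toRingEquiv (stabEquiv hact e) (quotEquiv_equivariant hact e)

theorem genHom_apply (a : Additive (L ⊗[k] F)ˣ) :
    (genHom hact e).hom a =
      Additive.ofMul (Units.map (((psiL e : L ⊗[k] F →ₐ[F] genField (F := F) e) :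
        L ⊗[k] F →+* genField (F := F) e) : L ⊗[k] F →* genField (F := F) e)
        (Additive.toMul a)) :=
  (galHom_apply (isSemilocal_tensor hact (kerIdeal (F := F) e)) (fun _ _ => rfl) (fun _ _ => rfl)
    (quotEquiv e).toRingEquiv (stabEquiv hact e) (quotEquiv_equivariant hact e) a).trans rfl

/-- **Explicit semilocal Shapiro, field model, degree 2**:
`H²(G, (L ⊗[k] F)ˣ) → H²(Gal(F(eL)/F), F(eL)ˣ)` is bijective. -/
theorem genMap_bijective₂ :
    Function.Bijective (groupCohomology.map (genGroupHom hact e) (genHom hact e) 2) :=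
  galMap_bijective₂ _ _ _ _ _ _

/-- **Explicit semilocal Shapiro, field model, degree 1.** -/
theorem genMap_bijective₁ :
    Function.Bijective (groupCohomology.map (genGroupHom hact e) (genHom hact e) 1) :=
  galMap_bijective₁ _ _ _ _ _ _

end GenField

/-! ### (D) number fields: `Objects.JRep K L F`, `Blocks3.Jloc`, compatibility with `Blocks3.locH` -/

section Compose

variable {G H : Type} [Group G] [Group H] {A A' : Rep ℤ G} {B : Rep ℤ H}

/-- `map id φ ≫ map f ψ = map f (Res_f φ ≫ ψ)`. -/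
theorem map_id_comp_map (f : H →* G) (φ : A ⟶ A') (ψ : Rep.res f A' ⟶ B) (n : ℕ) :
    groupCohomology.map (MonoidHom.id G) φ n ≫ groupCohomology.map f ψ n =
      groupCohomology.map f ((Rep.resFunctor f).map φ ≫ ψ) n :=
  (groupCohomology.map_comp (MonoidHom.id G) f φ ψ n).symm

end Compose

section JRep

open Fermat.Agent.S55.Global.Objects Fermat.Agent.S55.Global.SemilocalH3
open Fermat.Agent.S55.Global.Blocks3

attribute [local instance] Algebra.TensorProduct.rightAlgebra
attribute [local instance] stabQuotAction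
attribute [local instance] Units.mulDistribMulActionRight
attribute [local instance] finiteDimensional_nf

variable (K L : Type) [Field K] [NumberField K] [Field L] [NumberField L] [Algebra K L]
  [IsGalois K L]
variable (F : Type) [Field F] [Algebra K F]
variable (m : Ideal (L ⊗[K] F)) [hm : m.IsMaximal]

/-- `Res_{Stab m} (JRep K L F) ⟶ ((L ⊗[K] F) ⧸ m)ˣ`, `u ↦ u mod m`. -/
noncomputable def jQuotHom :
    Rep.res (MulAction.stabilizer (L ≃ₐ[K] L) m).subtype (JRep K L F) ⟶
      Rep.ofMulDistribMulAction (MulAction.stabilizer (L ≃ₐ[K] L) m) ((L ⊗[K] F) ⧸ m)ˣ :=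
  quotHom (hact K L F) m

theorem jQuotHom_apply (a : Additive (L ⊗[K] F)ˣ) :
    (jQuotHom K L F m).hom a =
      Additive.ofMul (Units.map ((Ideal.Quotient.mk m : L ⊗[K] F →+* _) : L ⊗[K] F →* _)
        (Additive.toMul a)) :=
  quotHom_apply (hact K L F) m a

/-- **Explicit semilocal Shapiro for `JRep K L F`, degree 2**: restriction to the decomposition
group `Stab m` followed by reduction mod `m` is bijective `H²(Gal(L/K), (L ⊗[K] F)ˣ) → H²(Stab m, Eˣ)`. -/
theorem jQuotMap_bijective₂ :
    Function.Bijective (groupCohomology.map (MulAction.stabilizer (L ≃ₐ[K] L) m).subtype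
      (jQuotHom K L F m) 2) :=
  quotMap_bijective₂ (hact K L F) m

theorem jQuotMap_bijective₁ :
    Function.Bijective (groupCohomology.map (MulAction.stabilizer (L ≃ₐ[K] L) m).subtype
      (jQuotHom K L F m) 1) :=
  quotMap_bijective₁ (hact K L F) m

/-- `Res_{Stab m} Lˣ ⟶ ((L ⊗[K] F) ⧸ m)ˣ`, `x ↦ (x ⊗ 1) mod m`. -/
noncomputable def lxQuotHom :
    Rep.res (MulAction.stabilizer (L ≃ₐ[K] L) m).subtype (Rep.ofAlgebraAutOnUnits K L) ⟶
      Rep.ofMulDistribMulAction (MulAction.stabilizer (L ≃ₐ[K] L) m) ((L ⊗[K] F) ⧸ m)ˣ :=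
  (Rep.resFunctor (MulAction.stabilizer (L ≃ₐ[K] L) m).subtype).map (LxToJ K L F) ≫
    jQuotHom K L F m

/-- **Compatibility with `locH`**: localisation `Hⁿ(G, Lˣ) → Hⁿ(G, (L ⊗[K] F)ˣ)` followed by the
explicit Shapiro map is the single map induced by `Stab m ↪ G`, `x ↦ (x ⊗ 1) mod m`. -/
theorem locH_comp_jQuotMap (n : ℕ) :
    locH K L F n ≫ groupCohomology.map (MulAction.stabilizer (L ≃ₐ[K] L) m).subtype
        (jQuotHom K L F m) n =
      groupCohomology.map (MulAction.stabilizer (L ≃ₐ[K] L) m).subtype (lxQuotHom K L F m) n :=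
  map_id_comp_map _ _ _ n

end JRep

section JRepGen

open Fermat.Agent.S55.Global.Objects Fermat.Agent.S55.Global.SemilocalH3
open Fermat.Agent.S55.Global.Blocks3
open Fermat.Agent.S55.Middle.SemilocalCompare

attribute [local instance] Algebra.TensorProduct.rightAlgebra
attribute [local instance] stabQuotAction
attribute [local instance] Units.mulDistribMulActionRight
attribute [local instance] finiteDimensional_nf

variable (K L : Type) [Field K] [NumberField K] [Field L] [NumberField L] [Algebra K L]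
  [IsGalois K L]
variable (F : Type) {Ω : Type} [Field F] [Field Ω] [Algebra K F] [Algebra F Ω] [Algebra K Ω]
  [IsScalarTower K F Ω] (e : L →ₐ[K] Ω)

/-- `Gal(F(eL)/F) →* Gal(L/K)`: the decomposition group of `e`, `σ ↦ g` with `e ∘ g = σ ∘ e`. -/
noncomputable def jGenGroupHom :
    (genField (F := F) e ≃ₐ[F] genField (F := F) e) →* (L ≃ₐ[K] L) :=
  genGroupHom (hact K L F) e

theorem jGenGroupHom_spec (σ : genField (F := F) e ≃ₐ[F] genField (F := F) e) (l : L) :
    e (jGenGroupHom K L F e σ l) = ((σ (toGen e l) : genField (F := F) e) : Ω) :=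
  genGroupHom_spec (hact K L F) e σ l

/-- `Res (JRep K L F) ⟶ F(eL)ˣ`, `u ↦ ψ_e u` (`l ⊗ c ↦ e l * c`). -/
noncomputable def jGenHom :
    Rep.res (jGenGroupHom K L F e) (JRep K L F) ⟶
      Rep.ofAlgebraAutOnUnits F (genField (F := F) e) :=
  genHom (hact K L F) e

theorem jGenHom_apply (a : Additive (L ⊗[K] F)ˣ) :
    (jGenHom K L F e).hom a =
      Additive.ofMul (Units.map (((psiL e : L ⊗[K] F →ₐ[F] genField (F := F) e) :
        L ⊗[K] F →+* genField (F := F) e) : L ⊗[K] F →* genField (F := F) e)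
        (Additive.toMul a)) :=
  genHom_apply (hact K L F) e a

/-- **Explicit semilocal Shapiro, field model, for `JRep K L F`, degree 2**:
`H²(Gal(L/K), (L ⊗[K] F)ˣ) → H²(Gal(F(eL)/F), F(eL)ˣ)` (Mathlib `Rep.ofAlgebraAutOnUnits`)
is bijective. -/
theorem jGenMap_bijective₂ :
    Function.Bijective (groupCohomology.map (jGenGroupHom K L F e) (jGenHom K L F e) 2) :=
  genMap_bijective₂ (hact K L F) e

theorem jGenMap_bijective₁ :
    Function.Bijective (groupCohomology.map (jGenGroupHom K L F e) (jGenHom K L F e) 1) :=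
  genMap_bijective₁ (hact K L F) e

/-- `Res Lˣ ⟶ F(eL)ˣ`, `x ↦ e x`. -/
noncomputable def lxGenHom :
    Rep.res (jGenGroupHom K L F e) (Rep.ofAlgebraAutOnUnits K L) ⟶
      Rep.ofAlgebraAutOnUnits F (genField (F := F) e) :=
  (Rep.resFunctor (jGenGroupHom K L F e)).map (LxToJ K L F) ≫ jGenHom K L F e

theorem lxGenHom_apply (x : Additive Lˣ) :
    (lxGenHom K L F e).hom x =
      Additive.ofMul (Units.map ((toGen (F := F) e : L →ₐ[K] genField (F := F) e) :
        L →* genField (F := F) e) (Additive.toMul x)) := by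
  refine (jGenHom_apply K L F e ((LxToJ K L F).hom x)).trans ?_
  apply Additive.toMul.injective
  apply Units.ext
  show psiL e (((Additive.toMul x : Lˣ) : L) ⊗ₜ[K] (1 : F)) = toGen e ((Additive.toMul x : Lˣ) : L)
  exact psiL_tmul_one e _

/-- **Compatibility with `locH`** (field model): localisation followed by explicit Shapiro is the
single map induced by `Gal(F(eL)/F) → Gal(L/K)` and `e : Lˣ → F(eL)ˣ`. -/
theorem locH_comp_jGenMap (n : ℕ) :
    locH K L F n ≫ groupCohomology.map (jGenGroupHom K L F e) (jGenHom K L F e) n =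
      groupCohomology.map (jGenGroupHom K L F e) (lxGenHom K L F e) n :=
  map_id_comp_map _ _ _ n

/-- Consequence: a class of `H²(Gal(L/K), Lˣ)` is locally trivial at `F` iff its image under the
single map `(jGenGroupHom, lxGenHom)` in `H²(Gal(F(eL)/F), F(eL)ˣ)` vanishes. -/
theorem locH_eq_zero_iff (x : groupCohomology (Rep.ofAlgebraAutOnUnits K L) 2) :
    locH K L F 2 x = 0 ↔
      groupCohomology.map (jGenGroupHom K L F e) (lxGenHom K L F e) 2 x = 0 := by
  rw [← locH_comp_jGenMap]
  constructor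
  · intro h
    show groupCohomology.map (jGenGroupHom K L F e) (jGenHom K L F e) 2 (locH K L F 2 x) = 0
    rw [h, map_zero]
  · intro h
    apply (jGenMap_bijective₂ K L F e).1
    rw [map_zero]
    exact h

end JRepGen

end Fermat.Agent.S55.Coh.SemilocalExplicit
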