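/-
S55 / cohomology toolbox — EXPLICIT Shapiro in Mathlib's `groupCohomology` language (helper39).

Mathlib's `groupCohomology.coindIso` is abstract (no formula).  Here: for `S ≤ G`, `A : Rep k S`,

  `coindEval A : Rep.res S.subtype (Rep.coind S.subtype A) ⟶ A`,   `f ↦ f 1`,
  `shMap A n := groupCohomology.map S.subtype (coindEval A) n : Hⁿ(G, coind A) ⟶ Hⁿ(S, A)`

(restriction to `S` followed by evaluation at `1`) is bijective for `n = 1, 2`
(cocycle computations: `Bridge/ShapiroGeneric`, helper14).
-/
import Mathlib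
import Fermat.Agent.S55.Bridge.ShapiroGeneric
import Fermat.Agent.S55.Coh.Imprimitive

set_option autoImplicit false
set_option linter.unusedSectionVars false

namespace Fermat.Agent.S55.Coh.ShapiroExplicit

open CategoryTheory groupCohomology
open Fermat.Agent.S55.Bridge.ShapiroGeneric

universe u

variable {k G : Type u} [CommRing k] [Group G] {S : Subgroup G} (A : Rep k S)

/-- Evaluation at `1`: `Res_S (Coind_S^G A) ⟶ A`. -/
noncomputable def coindEval : Rep.res S.subtype (Rep.coind S.subtype A) ⟶ A :=
  Rep.ofHom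
    { toLinearMap :=
        { toFun := fun f => f.1 1
          map_add' := fun _ _ => rfl
          map_smul' := fun _ _ => rfl }
      isIntertwining' := fun s => by
        ext f
        have := f.2 s 1
        simp only [Subgroup.subtype_apply, mul_one] at this
        show f.1 (1 * (s : G)) = A.ρ s (f.1 1)
        rw [one_mul]
        exact this }

@[simp] lemma coindEval_apply (f : Rep.coind S.subtype A) :
    (coindEval A).hom f = f.1 1 := rfl

/-- The explicit Shapiro map `Hⁿ(G, Coind_S^G A) ⟶ Hⁿ(S, A)`. -/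
noncomputable abbrev shMap (n : ℕ) :
    groupCohomology (Rep.coind S.subtype A) n ⟶ groupCohomology A n :=
  groupCohomology.map S.subtype (coindEval A) n

/-! ### cocycle-level statements -/

section Cocycle

variable {A}

/-- An equivariant family `E g ∈ Fun(G, A)` as a cochain with values in the coinduced module. -/
def toCoindCochain₁ (E : G → G → A.V) (hE : Eq1 A.ρ E) : G → (Rep.coind S.subtype A).V :=
  fun g => ⟨fun x => E g x, fun u x => hE u g x⟩

/-- Injectivity of the explicit Shapiro map on `2`-cocycles: if the restriction to `S` evaluated at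
`1` is a coboundary, then the coind-valued cocycle is a coboundary. -/
theorem mem_coboundaries₂_of_eval (c : G × G → (Rep.coind S.subtype A).V)
    (hc : c ∈ cocycles₂ (Rep.coind S.subtype A))
    (h : (fun p : S × S => (c ((p.1 : G), (p.2 : G))).1 1) ∈ coboundaries₂ A) :
    c ∈ coboundaries₂ (Rep.coind S.subtype A) := by
  obtain ⟨r⟩ := exists_retraction S
  set F : G → G → G → A.V := fun g h x => (c (g, h)).1 x with hF
  have hEq : Eq2 A.ρ F := fun u g h x => (c (g, h)).2 u x
  have hcoc := (mem_cocycles₂_iff c).1 hc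
  have hδ : δ2 F = 0 := by
    funext g h j x
    have := congrArg (fun f : (Rep.coind S.subtype A).V => f.1 x) (hcoc g h j)
    simp only [δ2, hF, Pi.zero_apply]
    have h2 : (c (g * h, j)).1 x + (c (g, h)).1 x = (c (h, j)).1 (x * g) + (c (g, h * j)).1 x :=
      this
    rw [sub_add_eq_add_sub, sub_sub, sub_eq_zero]
    rw [add_comm ((c (g * h, j)).1 x)] at h2 ⊢
    exact h2.symm ▸ (by rw [add_comm])
  obtain ⟨c', hc'⟩ := h
  have hSh : Sh2 (U := S) F = dU1 A.ρ c' := by
    funext u v
    have := congrFun hc' (u, v)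
    simp only [Sh2, hF, dU1]
    rw [← this]
    rfl
  have h1 := homotopy2 r hEq hδ
  rw [hSh, ← δ1_Sh'1] at h1
  set E : G → G → A.V := Sh'1 A.ρ r c' - Hom2 r F with hE
  have hEEq : Eq1 A.ρ E := Eq1_sub (Eq1_Sh'1 A.ρ r c') (Eq1_Hom2 r hEq)
  have hFE : F = δ1 E := by rw [hE, δ1_sub, ← h1]; abel
  refine ⟨toCoindCochain₁ E hEEq, ?_⟩
  funext p
  obtain ⟨g, h⟩ := p
  apply Subtype.ext
  funext x
  have := congrFun (congrFun (congrFun hFE g) h) x
  simp only [hF, δ1] at this
  rw [this]
  rfl

/-- An equivariant function as an element of the coinduced module. -/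
def toCoindCochain₀ (e : G → A.V) (he : Eq0 A.ρ e) : (Rep.coind S.subtype A).V :=
  ⟨e, fun u x => he u x⟩

/-- Injectivity of the explicit Shapiro map on `1`-cocycles. -/
theorem mem_coboundaries₁_of_eval (c : G → (Rep.coind S.subtype A).V)
    (hc : c ∈ cocycles₁ (Rep.coind S.subtype A))
    (h : (fun s : S => (c (s : G)).1 1) ∈ coboundaries₁ A) :
    c ∈ coboundaries₁ (Rep.coind S.subtype A) := by
  obtain ⟨r⟩ := exists_retraction S
  set F : G → G → A.V := fun g x => (c g).1 x with hF
  have hEq : Eq1 A.ρ F := fun u g x => (c g).2 u x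
  have hcoc := (mem_cocycles₁_iff c).1 hc
  have hδ : δ1 F = 0 := by
    funext g h x
    have := congrArg (fun f : (Rep.coind S.subtype A).V => f.1 x) (hcoc g h)
    simp only [δ1, hF, Pi.zero_apply]
    have h2 : (c (g * h)).1 x = (c h).1 (x * g) + (c g).1 x := this
    rw [h2]
    abel
  obtain ⟨a, ha⟩ := h
  have hSh : Sh1 (U := S) F = dU0 A.ρ a := by
    funext u
    have := congrFun ha u
    simp only [Sh1, hF, dU0]
    rw [← this]
    rfl
  obtain ⟨e, he, hFe⟩ := shapiro_inj1 r hEq hδ hSh
  refine ⟨toCoindCochain₀ e he, ?_⟩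
  funext g
  apply Subtype.ext
  funext x
  have := congrFun (congrFun hFe g) x
  simp only [hF, δ0] at this
  rw [this]
  rfl

/-- An equivariant family `F g h ∈ Fun(G, A)` as a `2`-cochain with values in the coinduced
module. -/
def toCoindCochain₂ (F : G → G → G → A.V) (hF : Eq2 A.ρ F) :
    G × G → (Rep.coind S.subtype A).V :=
  fun p => ⟨fun x => F p.1 p.2 x, fun u x => hF u p.1 p.2 x⟩

/-- Surjectivity of the explicit Shapiro map on `2`-cocycles. -/
theorem exists_cocycle₂_eval (c' : S × S → A.V) (hc' : c' ∈ cocycles₂ A) :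
    ∃ c : G × G → (Rep.coind S.subtype A).V, c ∈ cocycles₂ (Rep.coind S.subtype A) ∧
      (fun p : S × S => (c ((p.1 : G), (p.2 : G))).1 1) = c' := by
  obtain ⟨r⟩ := exists_retraction S
  set γ : S → S → A.V := fun u v => c' (u, v) with hγ
  have hcoc := (mem_cocycles₂_iff c').1 hc'
  have hd : dU2 A.ρ γ = 0 := by
    funext u v w
    have := hcoc u v w
    simp only [dU2, hγ, Pi.zero_apply]
    rw [sub_add_eq_add_sub, sub_sub, sub_eq_zero]
    exact this.symm
  have hδ : δ2 (Sh'2 A.ρ r γ) = 0 := by rw [δ2_Sh'2, hd, Sh'3_zero]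
  refine ⟨toCoindCochain₂ (Sh'2 A.ρ r γ) (Eq2_Sh'2 A.ρ r γ), ?_, ?_⟩
  · rw [mem_cocycles₂_iff]
    intro g h j
    apply Subtype.ext
    funext x
    have := congrFun (congrFun (congrFun (congrFun hδ g) h) j) x
    simp only [δ2, Pi.zero_apply] at this
    show Sh'2 A.ρ r γ (g * h) j x + Sh'2 A.ρ r γ g h x =
      Sh'2 A.ρ r γ h j (x * g) + Sh'2 A.ρ r γ g (h * j) x
    rw [sub_add_eq_add_sub, sub_sub, sub_eq_zero] at this
    exact this.symm
  · funext p
    have := congrFun (congrFun (Sh2_Sh'2 A.ρ r γ) p.1) p.2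
    exact this

/-- Surjectivity of the explicit Shapiro map on `1`-cocycles. -/
theorem exists_cocycle₁_eval (c' : S → A.V) (hc' : c' ∈ cocycles₁ A) :
    ∃ c : G → (Rep.coind S.subtype A).V, c ∈ cocycles₁ (Rep.coind S.subtype A) ∧
      (fun s : S => (c (s : G)).1 1) = c' := by
  obtain ⟨r⟩ := exists_retraction S
  have hcoc := (mem_cocycles₁_iff c').1 hc'
  have hd : dU1 A.ρ c' = 0 := by
    funext u v
    have := hcoc u v
    simp only [dU1, Pi.zero_apply]
    rw [this]
    abel
  have hδ : δ1 (Sh'1 A.ρ r c') = 0 := by rw [δ1_Sh'1, hd, Sh'2_zero]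
  refine ⟨toCoindCochain₁ (Sh'1 A.ρ r c') (Eq1_Sh'1 A.ρ r c'), ?_, ?_⟩
  · rw [mem_cocycles₁_iff]
    intro g h
    apply Subtype.ext
    funext x
    have := congrFun (congrFun (congrFun hδ g) h) x
    simp only [δ1, Pi.zero_apply] at this
    show Sh'1 A.ρ r c' (g * h) x = Sh'1 A.ρ r c' h (x * g) + Sh'1 A.ρ r c' g x
    rw [sub_add_eq_add_sub, sub_eq_zero] at this
    exact this.symm
  · funext s
    exact congrFun (Sh1_Sh'1 A.ρ r c') s

end Cocycle

/-! ### cohomology-level statements -/

/-- **Explicit Shapiro, degree 2**: a class of `H²(G, Coind_S^G A)` whose restriction to `S`,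
evaluated at `1`, vanishes in `H²(S, A)`, is zero. -/
theorem eq_zero_of_shMap_eq_zero₂ (x : H2 (Rep.coind S.subtype A))
    (hx : shMap A 2 x = 0) : x = 0 := by
  induction x using H2_induction_on with
  | h c =>
    rw [H2π_eq_zero_iff]
    have h := H2π_comp_map_apply S.subtype (coindEval A) c
    rw [h, H2π_eq_zero_iff] at hx
    exact mem_coboundaries₂_of_eval c.1 c.2 hx

/-- **Explicit Shapiro, degree 1**. -/
theorem eq_zero_of_shMap_eq_zero₁ (x : H1 (Rep.coind S.subtype A))
    (hx : shMap A 1 x = 0) : x = 0 := by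
  induction x using H1_induction_on with
  | h c =>
    rw [H1π_eq_zero_iff]
    have h := H1π_comp_map_apply S.subtype (coindEval A) c
    rw [h, H1π_eq_zero_iff] at hx
    exact mem_coboundaries₁_of_eval c.1 c.2 hx

/-- **Explicit Shapiro, degree 2, surjectivity.** -/
theorem shMap_surjective₂ : Function.Surjective (shMap A 2) := by
  intro y
  induction y using H2_induction_on with
  | h c' =>
    obtain ⟨c, hc, hcc'⟩ := exists_cocycle₂_eval c'.1 c'.2
    refine ⟨H2π _ ⟨c, hc⟩, ?_⟩
    rw [H2π_comp_map_apply S.subtype (coindEval A) ⟨c, hc⟩]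
    congr 1
    apply Subtype.ext
    exact hcc'

/-- **Explicit Shapiro, degree 1, surjectivity.** -/
theorem shMap_surjective₁ : Function.Surjective (shMap A 1) := by
  intro y
  induction y using H1_induction_on with
  | h c' =>
    obtain ⟨c, hc, hcc'⟩ := exists_cocycle₁_eval c'.1 c'.2
    refine ⟨H1π _ ⟨c, hc⟩, ?_⟩
    rw [H1π_comp_map_apply S.subtype (coindEval A) ⟨c, hc⟩]
    congr 1
    apply Subtype.ext
    exact hcc'

theorem shMap_injective₂ : Function.Injective (shMap A 2) := by
  rw [← ModuleCat.mono_iff_injective, ModuleCat.mono_iff_ker_eq_bot, LinearMap.ker_eq_bot']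
  exact fun x hx => eq_zero_of_shMap_eq_zero₂ A x hx

theorem shMap_injective₁ : Function.Injective (shMap A 1) := by
  rw [← ModuleCat.mono_iff_injective, ModuleCat.mono_iff_ker_eq_bot, LinearMap.ker_eq_bot']
  exact fun x hx => eq_zero_of_shMap_eq_zero₁ A x hx

/-! ### modules isomorphic to a coinduced module -/

section Iso

variable {A} {M : Rep k G}

/-- For `e : M ≅ Coind_S^G A`: restriction to `S` followed by `m ↦ (e m)(1)`. -/
noncomputable def evalOfIso (e : M ≅ Rep.coind S.subtype A) : Rep.res S.subtype M ⟶ A :=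
  (Rep.resFunctor S.subtype).map e.hom ≫ coindEval A

lemma map_evalOfIso (e : M ≅ Rep.coind S.subtype A) (n : ℕ) :
    groupCohomology.map S.subtype (evalOfIso e) n =
      groupCohomology.map (MonoidHom.id G) e.hom n ≫ shMap A n :=
  groupCohomology.map_comp (MonoidHom.id G) S.subtype e.hom (coindEval A) n

lemma map_id_iso_bijective (e : M ≅ Rep.coind S.subtype A) (n : ℕ) :
    Function.Bijective (groupCohomology.map (MonoidHom.id G) e.hom n) :=
  ConcreteCategory.bijective_of_isIso ((groupCohomology.functor k G n).map e.hom)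

/-- **Explicit Shapiro for `M ≅ Coind_S^G A`, degree 2.** -/
theorem evalOfIso_bijective₂ (e : M ≅ Rep.coind S.subtype A) :
    Function.Bijective (groupCohomology.map S.subtype (evalOfIso e) 2) := by
  rw [map_evalOfIso]
  have h := Function.Bijective.comp ⟨shMap_injective₂ A, shMap_surjective₂ A⟩
    (map_id_iso_bijective e 2)
  convert h using 1
  funext x
  rfl

/-- **Explicit Shapiro for `M ≅ Coind_S^G A`, degree 1.** -/
theorem evalOfIso_bijective₁ (e : M ≅ Rep.coind S.subtype A) :
    Function.Bijective (groupCohomology.map S.subtype (evalOfIso e) 1) := by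
  rw [map_evalOfIso]
  have h := Function.Bijective.comp ⟨shMap_injective₁ A, shMap_surjective₁ A⟩
    (map_id_iso_bijective e 1)
  convert h using 1
  funext x
  rfl

end Iso

/-! ### systems of imprimitivity (transitive case) -/

section Imprimitive

open Fermat.Agent.S55.Coh.Imprimitive MulAction

variable {B : Type u} {X : Type*} [AddCommGroup B] [Module k B]
  [Fintype X] [MulAction G X] [IsPretransitive G X]
  {ρ : Representation k G B} {π : X → B →ₗ[k] B} (h : System ρ π) (x₀ : X)

/-- Restriction to the stabiliser of `x₀` followed by the projection `π x₀` onto the component. -/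
noncomputable def projHom :
    Rep.res (stabilizer G x₀).subtype (Rep.of ρ) ⟶ Rep.of (stabRep h x₀) :=
  evalOfIso (repIso h x₀)

lemma projHom_apply (b : B) :
    (((projHom h x₀).hom b : LinearMap.range (π x₀)) : B) = π x₀ b := by
  show π x₀ (ρ 1 b) = π x₀ b
  rw [map_one, Module.End.one_apply]

/-- The localisation map `Hⁿ(G, B) ⟶ Hⁿ(Stab x₀, range (π x₀))`: restriction + projection. -/
noncomputable abbrev locMap (n : ℕ) :
    groupCohomology (Rep.of ρ) n ⟶ groupCohomology (Rep.of (stabRep h x₀)) n :=
  groupCohomology.map (stabilizer G x₀).subtype (projHom h x₀) n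

/-- **Explicit semilocal Shapiro, degree 2** (transitive system of imprimitivity). -/
theorem locMap_bijective₂ : Function.Bijective (locMap h x₀ 2) :=
  evalOfIso_bijective₂ (repIso h x₀)

/-- **Explicit semilocal Shapiro, degree 1** (transitive system of imprimitivity). -/
theorem locMap_bijective₁ : Function.Bijective (locMap h x₀ 1) :=
  evalOfIso_bijective₁ (repIso h x₀)

end Imprimitive

end Fermat.Agent.S55.Coh.ShapiroExplicit
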