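/-
S55 / cohomology toolbox — explicit semilocal Shapiro for NON-transitive systems of imprimitivity,
and detection of classes on finite decompositions (helper39).

* `eq_zero_of_decomp` : if `∑ i, p i ≫ s i = 𝟙 M` in `Rep k G` and `x ∈ Hⁿ(G, M)` dies under every
  `p i`, then `x = 0` (all `n`).
* For a system of imprimitivity `System ρ π` on an arbitrary finite `G`-set `X`:
  `locMapGen h x₀ n : Hⁿ(G, B) ⟶ Hⁿ(Stab x₀, range (π x₀))` (restriction + projection) and
  `eq_zero_of_locMapGen_eq_zero₁/₂` : a class killed by all `locMapGen h x₀` is zero.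
-/
import Mathlib
import Fermat.Agent.S55.Coh.ShapiroExplicit

set_option autoImplicit false
set_option linter.unusedSectionVars false

namespace Fermat.Agent.S55.Coh.ShapiroOrbits

open CategoryTheory groupCohomology MulAction
open Fermat.Agent.S55.Coh.Imprimitive Fermat.Agent.S55.Coh.ShapiroExplicit

universe u

section Additivity

variable {k G : Type u} [CommRing k] [Group G]

/-- `map id · n` is additive in the coefficient morphism. -/
lemma map_id_add {A B : Rep k G} (φ ψ : A ⟶ B) (n : ℕ) :
    groupCohomology.map (MonoidHom.id G) (φ + ψ) n =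
      groupCohomology.map (MonoidHom.id G) φ n + groupCohomology.map (MonoidHom.id G) ψ n := by
  show HomologicalComplex.homologyMap ((cochainsFunctor k G).map (φ + ψ)) n = _
  rw [Functor.map_add, HomologicalComplex.homologyMap_add]
  rfl

lemma map_id_zero {A B : Rep k G} (n : ℕ) :
    groupCohomology.map (MonoidHom.id G) (0 : A ⟶ B) n = 0 :=
  (groupCohomology.functor k G n).map_zero A B

lemma map_id_sum {ι : Type*} {A B : Rep k G} (s : Finset ι) (φ : ι → (A ⟶ B)) (n : ℕ) :
    groupCohomology.map (MonoidHom.id G) (∑ i ∈ s, φ i) n =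
      ∑ i ∈ s, groupCohomology.map (MonoidHom.id G) (φ i) n := by
  classical
  induction s using Finset.induction_on with
  | empty => simp [map_id_zero]
  | insert a s ha ih => rw [Finset.sum_insert ha, Finset.sum_insert ha, map_id_add, ih]

/-- **Detection on a finite decomposition**: if `∑ i, p i ≫ s i = 𝟙 M` and `x ∈ Hⁿ(G, M)` dies under
every `p i`, then `x = 0`. -/
theorem eq_zero_of_decomp {ι : Type*} [Fintype ι] {M : Rep k G} (C : ι → Rep k G)
    (p : ∀ i, M ⟶ C i) (s : ∀ i, C i ⟶ M) (hsum : ∑ i, p i ≫ s i = 𝟙 M) (n : ℕ)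
    (x : groupCohomology M n)
    (hx : ∀ i, groupCohomology.map (MonoidHom.id G) (p i) n x = 0) : x = 0 := by
  have h1 : groupCohomology.map (MonoidHom.id G) (𝟙 M) n x = x := by
    rw [groupCohomology.map_id]; rfl
  rw [← h1, ← hsum, map_id_sum]
  have h2 : ∀ i, groupCohomology.map (MonoidHom.id G) (p i ≫ s i) n x = 0 := by
    intro i
    rw [groupCohomology.map_id_comp]
    show groupCohomology.map (MonoidHom.id G) (s i) n
      (groupCohomology.map (MonoidHom.id G) (p i) n x) = 0
    rw [hx i, map_zero]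
  have h3 : ∀ (t : Finset ι) (f : ι → (groupCohomology M n ⟶ groupCohomology M n)),
      (∀ i ∈ t, f i x = 0) → (∑ i ∈ t, f i) x = 0 := by
    intro t f
    classical
    induction t using Finset.induction_on with
    | empty => intro _; simp
    | insert a t ha ih =>
      intro hf
      rw [Finset.sum_insert ha]
      show (f a) x + (∑ i ∈ t, f i) x = 0
      rw [hf a (Finset.mem_insert_self a t),
        ih fun i hi => hf i (Finset.mem_insert_of_mem hi), add_zero]
  exact h3 _ _ fun i _ => h2 i

/-- For `φ : M ⟶ Coind_S^G A`: restriction to `S` followed by `m ↦ (φ m)(1)`. -/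
noncomputable def evalOfHom {S : Subgroup G} {A : Rep k S} {M : Rep k G}
    (φ : M ⟶ Rep.coind S.subtype A) : Rep.res S.subtype M ⟶ A :=
  (Rep.resFunctor S.subtype).map φ ≫ coindEval A

lemma map_evalOfHom {S : Subgroup G} {A : Rep k S} {M : Rep k G}
    (φ : M ⟶ Rep.coind S.subtype A) (n : ℕ) :
    groupCohomology.map S.subtype (evalOfHom φ) n =
      groupCohomology.map (MonoidHom.id G) φ n ≫ shMap A n :=
  groupCohomology.map_comp (MonoidHom.id G) S.subtype φ (coindEval A) n

end Additivity

/-! ### orbit idempotents of a system of imprimitivity -/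

section Orbits

variable {k G B : Type u} {X : Type*} [CommRing k] [Group G] [AddCommGroup B] [Module k B]
  [Fintype X] [MulAction G X]
  {ρ : Representation k G B} {π : X → B →ₗ[k] B} (h : System ρ π) (x₀ : X)

open Classical in
/-- The idempotent of the orbit of `x₀`: `∑_{x ∈ G x₀} π x`. -/
noncomputable def orbProj (G : Type u) [Group G] [MulAction G X] (π : X → B →ₗ[k] B) (x₀ : X) :
    B →ₗ[k] B :=
  ∑ x ∈ Finset.univ.filter (fun x => x ∈ orbit G x₀), π x

open Classical in
lemma orbProj_apply (b : B) :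
    orbProj G π x₀ b = ∑ x ∈ Finset.univ.filter (fun x => x ∈ orbit G x₀), π x b := by
  simp [orbProj, LinearMap.sum_apply]

include h in
/-- The orbit idempotent commutes with the action. -/
lemma rho_orbProj (g : G) (b : B) : ρ g (orbProj G π x₀ b) = orbProj G π x₀ (ρ g b) := by
  classical
  rw [orbProj_apply, orbProj_apply, map_sum]
  refine Finset.sum_equiv (MulAction.toPerm g) (fun x => ?_) (fun x _ => ?_)
  · simp only [Finset.mem_filter, Finset.mem_univ, true_and, MulAction.toPerm_apply]
    constructor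
    · exact fun hx => MulAction.mem_orbit_of_mem_orbit g hx
    · intro hx
      have := MulAction.mem_orbit_of_mem_orbit g⁻¹ hx
      rwa [inv_smul_smul] at this
  · rw [h.equiv]
    rfl

include h in
lemma pi_orbProj (b : B) : π x₀ (orbProj G π x₀ b) = π x₀ b := by
  classical
  rw [orbProj_apply, map_sum, Finset.sum_eq_single x₀]
  · exact h.idem x₀ b
  · intro x _ hx
    exact h.orth x₀ x (Ne.symm hx) b
  · intro hx
    exact absurd (Finset.mem_filter.2 ⟨Finset.mem_univ _, MulAction.mem_orbit_self x₀⟩) hx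

lemma toCoind_orbProj (b : B) : toCoind h x₀ (orbProj G π x₀ b) = toCoind h x₀ b := by
  apply Subtype.ext
  funext g
  apply Subtype.ext
  show π x₀ (ρ g (orbProj G π x₀ b)) = π x₀ (ρ g b)
  rw [rho_orbProj h, pi_orbProj h]

lemma orbProj_eq_zero_of_toCoind_eq_zero (b : B) (hb : toCoind h x₀ b = 0) :
    orbProj G π x₀ b = 0 := by
  classical
  have hz : ∀ g, π x₀ (ρ g b) = 0 := fun g => by
    have := congrArg (fun f => ((f.1 g : LinearMap.range (π x₀)) : B)) hb
    simpa using this
  rw [orbProj_apply]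
  refine Finset.sum_eq_zero fun x hx => ?_
  obtain ⟨g, hg⟩ := (Finset.mem_filter.1 hx).2
  -- `x = g • x₀`
  have hg' : g • x₀ = x := hg
  have h1 : ρ g (π x₀ (ρ g⁻¹ b)) = π x b := by
    rw [h.equiv, hg', rho_rho_inv]
  rw [← h1, hz, map_zero]

open Classical in
/-- an element moving `x` to `x₀`, if there is one -/
noncomputable def moverGen (G : Type u) [Group G] [MulAction G X] (x₀ x : X) : G :=
  if hx : ∃ g : G, g • x = x₀ then hx.choose else 1

lemma moverGen_smul {x : X} (hx : x ∈ orbit G x₀) : moverGen G x₀ x • x = x₀ := by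
  classical
  have hex : ∃ g : G, g • x = x₀ := by
    obtain ⟨g, hg⟩ := hx
    refine ⟨g⁻¹, ?_⟩
    rw [← hg]
    exact inv_smul_smul g x₀
  unfold moverGen
  rw [dif_pos hex]
  exact hex.choose_spec

include h in
lemma toCoind_surjective_gen : Function.Surjective (toCoind h x₀) := by
  classical
  intro f
  refine ⟨∑ x ∈ Finset.univ.filter (fun x => x ∈ orbit G x₀),
    ρ (moverGen G x₀ x)⁻¹ ((f.1 (moverGen G x₀ x) : LinearMap.range (π x₀)) : B), ?_⟩
  apply Subtype.ext
  funext g
  apply Subtype.ext
  rw [toCoind_apply, map_sum, map_sum]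
  have hterm : ∀ x ∈ Finset.univ.filter (fun x => x ∈ orbit G x₀),
      π x₀ (ρ g (ρ (moverGen G x₀ x)⁻¹
        ((f.1 (moverGen G x₀ x) : LinearMap.range (π x₀)) : B)))
      = if x = g⁻¹ • x₀ then ((f.1 g : LinearMap.range (π x₀)) : B) else 0 := by
    intro x hxO
    set m := moverGen G x₀ x with hm
    have hmx : m • x = x₀ := moverGen_smul x₀ (Finset.mem_filter.1 hxO).2
    obtain ⟨c, hc⟩ := (f.1 m).2
    have hxe : (g * m⁻¹) • x₀ = g • x := by
      rw [mul_smul, ← hmx, inv_smul_smul]
    have key : ρ g (ρ m⁻¹ ((f.1 m : LinearMap.range (π x₀)) : B))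
        = π (g • x) (ρ (g * m⁻¹) ((f.1 m : LinearMap.range (π x₀)) : B)) := by
      have h1 : ((f.1 m : LinearMap.range (π x₀)) : B)
          = π x₀ ((f.1 m : LinearMap.range (π x₀)) : B) := by
        rw [← hc, h.idem]
      calc ρ g (ρ m⁻¹ ((f.1 m : LinearMap.range (π x₀)) : B))
          = ρ (g * m⁻¹) ((f.1 m : LinearMap.range (π x₀)) : B) := by
            rw [map_mul, Module.End.mul_apply]
        _ = ρ (g * m⁻¹) (π x₀ ((f.1 m : LinearMap.range (π x₀)) : B)) := by rw [← h1]
        _ = π (g • x) (ρ (g * m⁻¹) ((f.1 m : LinearMap.range (π x₀)) : B)) := by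
            rw [h.equiv, hxe]
    rw [key]
    split_ifs with hx
    · have hgx : g • x = x₀ := by rw [hx, smul_inv_smul]
      have hu : g * m⁻¹ ∈ stabilizer G x₀ := by
        rw [mem_stabilizer_iff, hxe, hgx]
      rw [hgx, h.idem]
      have hf := f.2 ⟨g * m⁻¹, hu⟩ m
      have hf' : f.1 g = stabRep h x₀ ⟨g * m⁻¹, hu⟩ (f.1 m) := by
        rw [← hf]
        simp
      rw [hf', coe_stabRep]
      obtain ⟨c', hc'⟩ := (stabRep h x₀ ⟨g * m⁻¹, hu⟩ (f.1 m)).2
      rw [coe_stabRep] at hc'
      show π x₀ (ρ (g * m⁻¹) ((f.1 m : LinearMap.range (π x₀)) : B)) = _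
      rw [← hc', h.idem]
    · have hne : x₀ ≠ g • x := by
        intro he
        apply hx
        rw [he, inv_smul_smul]
      exact h.orth x₀ (g • x) hne _
  rw [Finset.sum_congr rfl hterm, Finset.sum_ite_eq']
  rw [if_pos]
  refine Finset.mem_filter.2 ⟨Finset.mem_univ _, ?_⟩
  exact ⟨g⁻¹, rfl⟩

/-- The section of `toCoind h x₀`, as a function: `f ↦ orbProj (any preimage of f)`. -/
noncomputable def secFun (f : Representation.coindV (stabilizer G x₀).subtype (stabRep h x₀)) : B :=
  orbProj G π x₀ (Function.surjInv (toCoind_surjective_gen h x₀) f)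

lemma secFun_toCoind (b : B) : secFun h x₀ (toCoind h x₀ b) = orbProj G π x₀ b := by
  unfold secFun
  set b' := Function.surjInv (toCoind_surjective_gen h x₀) (toCoind h x₀ b) with hb'
  have h1 : toCoind h x₀ b' = toCoind h x₀ b :=
    Function.surjInv_eq (toCoind_surjective_gen h x₀) _
  have h2 : toCoind h x₀ (b' - b) = 0 := by rw [map_sub, h1, sub_self]
  have h3 := orbProj_eq_zero_of_toCoind_eq_zero h x₀ _ h2
  rw [map_sub, sub_eq_zero] at h3
  exact h3

/-- The section of `toCoind h x₀` as a linear map. -/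
noncomputable def sec :
    Representation.coindV (stabilizer G x₀).subtype (stabRep h x₀) →ₗ[k] B where
  toFun := secFun h x₀
  map_add' f f' := by
    obtain ⟨b, rfl⟩ := toCoind_surjective_gen h x₀ f
    obtain ⟨b', rfl⟩ := toCoind_surjective_gen h x₀ f'
    rw [← map_add, secFun_toCoind, secFun_toCoind, secFun_toCoind, map_add]
  map_smul' c f := by
    obtain ⟨b, rfl⟩ := toCoind_surjective_gen h x₀ f
    rw [← map_smul, secFun_toCoind, secFun_toCoind, map_smul]
    rfl

lemma sec_toCoind (b : B) : sec h x₀ (toCoind h x₀ b) = orbProj G π x₀ b :=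
  secFun_toCoind h x₀ b

lemma sec_smul (g : G) (f : Representation.coindV (stabilizer G x₀).subtype (stabRep h x₀)) :
    sec h x₀ (Representation.coind (stabilizer G x₀).subtype (stabRep h x₀) g f) =
      ρ g (sec h x₀ f) := by
  obtain ⟨b, rfl⟩ := toCoind_surjective_gen h x₀ f
  rw [← toCoind_smul, sec_toCoind, sec_toCoind, rho_orbProj h]

/-! ### `Rep`-level morphisms -/

/-- `b ↦ (g ↦ π x₀ (ρ g b))` as a morphism `B ⟶ Coind (range (π x₀))` (no transitivity needed). -/
noncomputable def toCoindHom :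
    Rep.of ρ ⟶ Rep.coind (stabilizer G x₀).subtype (Rep.of (stabRep h x₀)) :=
  Rep.ofHom
    { toLinearMap := toCoind h x₀
      isIntertwining' := fun g => by
        ext b : 1
        exact toCoind_smul h x₀ g b }

/-- The section `Coind (range (π x₀)) ⟶ B`. -/
noncomputable def secHom :
    Rep.coind (stabilizer G x₀).subtype (Rep.of (stabRep h x₀)) ⟶ Rep.of ρ :=
  Rep.ofHom
    { toLinearMap := sec h x₀
      isIntertwining' := fun g => by
        ext f : 1
        exact sec_smul h x₀ g f }

/-- The orbit idempotent as an endomorphism of `B`. -/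
noncomputable def orbHom : Rep.of ρ ⟶ Rep.of ρ :=
  Rep.ofHom
    { toLinearMap := orbProj G π x₀
      isIntertwining' := fun g => by
        ext b : 1
        exact (rho_orbProj h x₀ g b).symm }

lemma toCoindHom_secHom : toCoindHom h x₀ ≫ secHom h x₀ = orbHom h x₀ := by
  apply Rep.hom_ext
  apply Representation.IntertwiningMap.ext
  refine LinearMap.ext fun b => ?_
  exact sec_toCoind h x₀ b

include h in
/-- The orbit idempotents of a set of orbit representatives sum to the identity. -/
lemma sum_orbProj [Fintype (orbitRel.Quotient G X)] (rep : orbitRel.Quotient G X → X)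
    (hrep : ∀ ω, (Quotient.mk'' (rep ω) : orbitRel.Quotient G X) = ω) (b : B) :
    ∑ ω, orbProj G π (rep ω) b = b := by
  classical
  have hmem : ∀ (ω : orbitRel.Quotient G X) (x : X),
      x ∈ orbit G (rep ω) ↔ (Quotient.mk'' x : orbitRel.Quotient G X) = ω := by
    intro ω x
    constructor
    · intro hx
      rw [← hrep ω]
      exact Quotient.sound' ((orbitRel_apply).2 hx)
    · intro hx
      rw [← hrep ω] at hx
      exact (orbitRel_apply).1 (Quotient.exact' hx)
  have h1 : ∀ ω, orbProj G π (rep ω) b =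
      ∑ x ∈ Finset.univ.filter (fun x => (Quotient.mk'' x : orbitRel.Quotient G X) = ω), π x b := by
    intro ω
    rw [orbProj_apply]
    refine Finset.sum_congr ?_ fun _ _ => rfl
    ext x
    simp only [Finset.mem_filter, Finset.mem_univ, true_and]
    exact hmem ω x
  rw [Finset.sum_congr rfl fun ω _ => h1 ω, Finset.sum_fiberwise]
  exact h.sum b

end Orbits

/-! ### the localisation maps and the detection theorem -/

section Detect

variable {k G B : Type u} {X : Type*} [CommRing k] [Group G] [AddCommGroup B] [Module k B]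
  [Fintype X] [MulAction G X]
  {ρ : Representation k G B} {π : X → B →ₗ[k] B} (h : System ρ π) (x₀ : X)

/-- Restriction to the stabiliser of `x₀` followed by the projection `π x₀` (no transitivity). -/
noncomputable def projHomGen :
    Rep.res (stabilizer G x₀).subtype (Rep.of ρ) ⟶ Rep.of (stabRep h x₀) :=
  evalOfHom (toCoindHom h x₀)

lemma projHomGen_apply (b : B) :
    (((projHomGen h x₀).hom b : LinearMap.range (π x₀)) : B) = π x₀ b := by
  show π x₀ (ρ 1 b) = π x₀ b
  rw [map_one, Module.End.one_apply]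

/-- The localisation map `Hⁿ(G, B) ⟶ Hⁿ(Stab x₀, range (π x₀))` (no transitivity). -/
noncomputable abbrev locMapGen (n : ℕ) :
    groupCohomology (Rep.of ρ) n ⟶ groupCohomology (Rep.of (stabRep h x₀)) n :=
  groupCohomology.map (stabilizer G x₀).subtype (projHomGen h x₀) n

lemma locMapGen_eq (n : ℕ) :
    locMapGen h x₀ n =
      groupCohomology.map (MonoidHom.id G) (toCoindHom h x₀) n ≫
        shMap (Rep.of (stabRep h x₀)) n :=
  map_evalOfHom (toCoindHom h x₀) n

/-- General detection statement: a class dying under `toCoindHom h (rep ω)` for a set of orbit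
representatives is zero (all degrees). -/
theorem eq_zero_of_toCoindHom_eq_zero (n : ℕ) (x : groupCohomology (Rep.of ρ) n)
    (hx : ∀ ω : orbitRel.Quotient G X, ∃ x₀ : X, (Quotient.mk'' x₀ : orbitRel.Quotient G X) = ω ∧
      groupCohomology.map (MonoidHom.id G) (toCoindHom h x₀) n x = 0) : x = 0 := by
  classical
  let _ : Fintype (orbitRel.Quotient G X) := Fintype.ofFinite _
  choose rep hrep hx' using hx
  refine eq_zero_of_decomp
    (fun ω => Rep.coind (stabilizer G (rep ω)).subtype (Rep.of (stabRep h (rep ω))))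
    (fun ω => toCoindHom h (rep ω)) (fun ω => secHom h (rep ω)) ?_ n x hx'
  apply Rep.hom_ext
  apply Representation.IntertwiningMap.ext
  refine LinearMap.ext fun b => ?_
  simp only [toCoindHom_secHom]
  rw [Rep.sum_hom]
  have h2 : ∀ (t : Finset (orbitRel.Quotient G X)),
      ((∑ ω ∈ t, (orbHom h (rep ω)).hom).toLinearMap) b = ∑ ω ∈ t, orbProj G π (rep ω) b := by
    intro t
    induction t using Finset.induction_on with
    | empty => simp
    | insert a t ha ih =>
      rw [Finset.sum_insert ha, Finset.sum_insert ha, ← ih]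
      rfl
  rw [h2]
  exact sum_orbProj h rep hrep b

/-- **Explicit semilocal Shapiro, degree 2, arbitrary finite `G`-set**: a class of `H²(G, B)` whose
restriction to the stabiliser, projected to the component, vanishes for one point of every orbit,
is zero. -/
theorem eq_zero_of_locMapGen_eq_zero₂ (x : H2 (Rep.of ρ))
    (hx : ∀ ω : orbitRel.Quotient G X, ∃ x₀ : X, (Quotient.mk'' x₀ : orbitRel.Quotient G X) = ω ∧
      locMapGen h x₀ 2 x = 0) : x = 0 := by
  refine eq_zero_of_toCoindHom_eq_zero h 2 x fun ω => ?_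
  obtain ⟨x₀, hω, hx₀⟩ := hx ω
  refine ⟨x₀, hω, eq_zero_of_shMap_eq_zero₂ _ _ ?_⟩
  rw [locMapGen_eq] at hx₀
  exact hx₀

/-- **Explicit semilocal Shapiro, degree 1, arbitrary finite `G`-set.** -/
theorem eq_zero_of_locMapGen_eq_zero₁ (x : H1 (Rep.of ρ))
    (hx : ∀ ω : orbitRel.Quotient G X, ∃ x₀ : X, (Quotient.mk'' x₀ : orbitRel.Quotient G X) = ω ∧
      locMapGen h x₀ 1 x = 0) : x = 0 := by
  refine eq_zero_of_toCoindHom_eq_zero h 1 x fun ω => ?_
  obtain ⟨x₀, hω, hx₀⟩ := hx ω
  refine ⟨x₀, hω, eq_zero_of_shMap_eq_zero₁ _ _ ?_⟩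
  rw [locMapGen_eq] at hx₀
  exact hx₀

/-- Variant: vanishing at ALL points. -/
theorem eq_zero_of_forall_locMapGen_eq_zero₂ (x : H2 (Rep.of ρ))
    (hx : ∀ x₀ : X, locMapGen h x₀ 2 x = 0) : x = 0 :=
  eq_zero_of_locMapGen_eq_zero₂ h x fun ω => ⟨ω.out, Quotient.out_eq' ω, hx _⟩

/-- Variant: vanishing at ALL points. -/
theorem eq_zero_of_forall_locMapGen_eq_zero₁ (x : H1 (Rep.of ρ))
    (hx : ∀ x₀ : X, locMapGen h x₀ 1 x = 0) : x = 0 :=
  eq_zero_of_locMapGen_eq_zero₁ h x fun ω => ⟨ω.out, Quotient.out_eq' ω, hx _⟩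

end Detect

end Fermat.Agent.S55.Coh.ShapiroOrbits
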