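/-
S55 / cohomology toolbox (helper83): the abstract "ugly lemma" (order bound by dévissage).

For a class `C` of pairs `(G, A)` (finite group, representation) closed under restriction to
subgroups, with `H¹(N, A) = 0` for normal subgroups and `#H²(G/N, A^N) ∣ [G : N]` for normal
subgroups of prime index, one has `#H²(G, A) ∣ #G`:

* for `p`-groups by induction along a normal subgroup of index `p` (inflation–restriction);
* for arbitrary finite groups given the restriction–corestriction statement
  `res_S x = 0 → [G : S] • x = 0` (Sylow embedding).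

Mathlib + `S55/Coh/InfRes2` only.
-/
import Mathlib
import Fermat.Agent.S55.Coh.InfRes2

set_option autoImplicit false
set_option linter.style.haveILetI false

open CategoryTheory Rep Representation groupCohomology

namespace Fermat.Agent.S55.Coh.Ugly

universe u

/-! ### Counting in a left exact sequence of abelian groups -/

section counting

variable {X₁ X₂ X₃ : Type*} [AddCommGroup X₁] [AddCommGroup X₂] [AddCommGroup X₃]

/-- If `0 → X₁ → X₂ → X₃` is exact with `X₁`, `X₃` finite, then `X₂` is finite and
`#X₂ ∣ #X₁ * #X₃`. -/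
theorem finite_and_card_dvd_of_exact (f : X₁ →+ X₂) (g : X₂ →+ X₃)
    (hex : ∀ x, g x = 0 → ∃ y, f y = x) [Finite X₁] [Finite X₃] :
    Finite X₂ ∧ Nat.card X₂ ∣ Nat.card X₁ * Nat.card X₃ := by
  classical
  -- the kernel of `g` is finite, of cardinality dividing `#X₁`
  have hker_le : (g.ker : Set X₂) ⊆ Set.range f := fun x hx => by
    obtain ⟨y, hy⟩ := hex x hx
    exact ⟨y, hy⟩
  haveI hkerfin : Finite g.ker := (Set.finite_range f).subset hker_le |>.to_subtype
  -- `#ker g ∣ #X₁`: `ker g` is a quotient of the subgroup `f⁻¹(ker g)`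
  have hker_dvd : Nat.card g.ker ∣ Nat.card X₁ := by
    -- the restriction `f⁻¹(ker g) → ker g` is surjective
    let K : AddSubgroup X₁ := g.ker.comap f
    let φ : K →+ g.ker :=
      { toFun := fun y => ⟨f y, y.2⟩
        map_zero' := by ext; simp
        map_add' := fun a b => by ext; simp }
    have hφ : Function.Surjective φ := by
      rintro ⟨x, hx⟩
      obtain ⟨y, hy⟩ := hex x hx
      exact ⟨⟨y, by show f y ∈ g.ker; rw [hy]; exact hx⟩, Subtype.ext hy⟩
    have h1 : Nat.card g.ker ∣ Nat.card K := AddSubgroup.card_dvd_of_surjective φ hφ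
    exact h1.trans (AddSubgroup.card_addSubgroup_dvd_card K)
  -- the quotient by the kernel embeds into `X₃`
  have hquot_inj : Function.Injective (QuotientAddGroup.kerLift g) :=
    QuotientAddGroup.kerLift_injective g
  haveI : Finite (X₂ ⧸ g.ker) := Finite.of_injective _ hquot_inj
  have hquot_dvd : Nat.card (X₂ ⧸ g.ker) ∣ Nat.card X₃ :=
    AddSubgroup.card_dvd_of_injective (QuotientAddGroup.kerLift g) hquot_inj
  have hcard : Nat.card X₂ = Nat.card (X₂ ⧸ g.ker) * Nat.card g.ker :=
    AddSubgroup.card_eq_card_quotient_mul_card_addSubgroup g.ker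
  have hne : Nat.card X₂ ≠ 0 := by
    rw [hcard]
    exact mul_ne_zero Nat.card_pos.ne' Nat.card_pos.ne'
  refine ⟨Nat.finite_of_card_ne_zero hne, ?_⟩
  rw [hcard, mul_comm]
  exact mul_dvd_mul hker_dvd hquot_dvd

end counting

open Fermat.Agent.S55.Coh.InfRes2

variable {k : Type u} [CommRing k]

/-! ### The trivial group -/

/-- `H²` of the trivial group vanishes. -/
theorem subsingleton_H2_of_subsingleton {G : Type u} [Group G] [Subsingleton G] (A : Rep k G) :
    Subsingleton (H2 A) := by
  have key : ∀ z : H2 A, z = 0 := by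
    intro z
    induction z using H2_induction_on with
    | h f =>
      rw [H2π_eq_zero_iff]
      refine ⟨fun _ => f (1, 1), ?_⟩
      ext ⟨g, h⟩
      rw [d₁₂_hom_apply]
      have hg : g = 1 := Subsingleton.elim _ _
      have hh : h = 1 := Subsingleton.elim _ _
      subst hg; subst hh
      simp
  exact ⟨fun x y => by rw [key x, key y]⟩

/-! ### One layer: inflation–restriction -/

/-- One dévissage step: for `N ⊴ G` with `H¹(N, A) = 0`,
`#H²(G, A) ∣ #H²(G/N, A^N) * #H²(N, A)` (and `H²(G, A)` is finite if the other two are). -/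
theorem finite_and_card_H2_dvd_of_normal {G : Type u} [Group G] (A : Rep k G) (N : Subgroup G)
    [N.Normal] (hN : H1Vanishes A N) [Finite (H2 (A.quotientToInvariants N))]
    [Finite (H2 (res N.subtype A))] :
    Finite (H2 A) ∧
      Nat.card (H2 A) ∣
        Nat.card (H2 (A.quotientToInvariants N)) * Nat.card (H2 (res N.subtype A)) := by
  refine finite_and_card_dvd_of_exact
    ((map (QuotientGroup.mk' N) (ofHom <| A.ρ.quotientToInvariants_lift N) 2 :
      H2 (A.quotientToInvariants N) ⟶ H2 A).hom.toAddMonoidHom)
    ((map N.subtype (𝟙 (res N.subtype A)) 2 : H2 A ⟶ H2 (res N.subtype A)).hom.toAddMonoidHom)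
    ?_
  intro x hx
  exact exists_infl_eq_of_res_eq_zero A N hN x hx

/-! ### Dévissage classes -/

/-- A class `C` of pairs (group, representation) suitable for the dévissage:
closed under restriction to subgroups, with `H¹(N, A) = 0` for normal subgroups `N` and
`#H²(G/N, A^N) ∣ [G : N]` for normal subgroups of prime index. -/
structure DevissageClass (C : ∀ (G : Type u) [Group G], Rep k G → Prop) : Prop where
  res : ∀ {G : Type u} [Group G] (A : Rep k G) (H : Subgroup G), C G A → C H (res H.subtype A)
  h1 : ∀ {G : Type u} [Group G] (A : Rep k G) (N : Subgroup G) [N.Normal], C G A →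
    H1Vanishes A N
  layer : ∀ {G : Type u} [Group G] [Finite G] (A : Rep k G) (N : Subgroup G) [N.Normal],
    C G A → N.index.Prime → Nat.card (H2 (A.quotientToInvariants N)) ∣ N.index

variable {C : ∀ (G : Type u) [Group G], Rep k G → Prop}

/-- The order bound for `p`-groups: `#H²(G, A) ∣ #G`. -/
theorem finite_and_card_H2_dvd_of_card_eq_pow (hC : DevissageClass C) (p : ℕ) [Fact p.Prime] :
    ∀ (n : ℕ) (G : Type u) [Group G] [Finite G] (A : Rep k G), C G A → Nat.card G = p ^ n →
      Finite (H2 A) ∧ Nat.card (H2 A) ∣ p ^ n := by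
  intro n
  induction n with
  | zero =>
    intro G _ _ A _ hcard
    rw [pow_zero] at hcard
    haveI : Subsingleton G := (Nat.card_eq_one_iff_unique.1 hcard).1
    haveI := subsingleton_H2_of_subsingleton A
    refine ⟨inferInstance, ?_⟩
    rw [pow_zero, Nat.card_of_subsingleton (0 : H2 A)]
  | succ n ih =>
    intro G _ _ A hA hcard
    have hp : p.Prime := Fact.out
    -- a subgroup of order `p ^ n`, hence of index `p`, hence normal
    obtain ⟨N, hN⟩ := Sylow.exists_subgroup_card_pow_prime (G := G) p (n := n)
      (by rw [hcard]; exact pow_dvd_pow p n.le_succ)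
    have hidx : N.index = p := by
      have h := N.index_mul_card
      rw [hN, hcard, pow_succ'] at h
      exact Nat.eq_of_mul_eq_mul_right (pow_pos hp.pos n) h
    haveI : N.Normal := by
      apply Subgroup.normal_of_index_eq_minFac_card
      rw [hidx, hcard, Nat.pow_minFac n.succ_ne_zero, hp.minFac_eq]
    -- the two outer terms
    obtain ⟨hfin3, hdvd3⟩ := ih N (res N.subtype A) (hC.res A N hA) hN
    have hdvd1 : Nat.card (H2 (A.quotientToInvariants N)) ∣ p := by
      have := hC.layer A N hA (by rw [hidx]; exact hp)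
      rwa [hidx] at this
    haveI hfin1 : Finite (H2 (A.quotientToInvariants N)) :=
      Nat.finite_of_card_ne_zero (fun h0 => by rw [h0] at hdvd1; exact hp.ne_zero (zero_dvd_iff.1 hdvd1))
    haveI := hfin3
    obtain ⟨hfin, hdvd⟩ := finite_and_card_H2_dvd_of_normal A N (hC.h1 A N hA)
    refine ⟨hfin, hdvd.trans ?_⟩
    rw [pow_succ']
    exact mul_dvd_mul hdvd1 hdvd3

/-! ### Arbitrary finite groups: Sylow embedding -/

/-- The restriction map `H²(G, A) ⟶ H²(S, A)` as an additive map. -/
noncomputable def resH2 {G : Type u} [Group G] (A : Rep k G) (S : Subgroup G) :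
    H2 A →+ H2 (res S.subtype A) :=
  (map S.subtype (𝟙 (res S.subtype A)) 2 : H2 A ⟶ H2 (res S.subtype A)).hom.toAddMonoidHom

theorem resH2_apply {G : Type u} [Group G] (A : Rep k G) (S : Subgroup G) (x : H2 A) :
    resH2 A S x = (map S.subtype (𝟙 (res S.subtype A)) 2 : H2 A ⟶ H2 (res S.subtype A)) x :=
  rfl

/-- The restriction–corestriction statement in degree 2: a class dying on a subgroup is killed
by the index. -/
def ResCorStatement {G : Type u} [Group G] (A : Rep k G) : Prop :=
  ∀ (S : Subgroup G) (x : H2 A), resH2 A S x = 0 → S.index • x = 0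

/-- Under restriction–corestriction, a class which dies on a Sylow `q`-subgroup for every prime
`q` dividing `#G` is zero. -/
theorem eq_zero_of_resH2_sylow_eq_zero {G : Type u} [Group G] [Finite G] (A : Rep k G)
    (hRC : ResCorStatement A) (P : ∀ q : (Nat.card G).primeFactors, Sylow (q : ℕ) G) (x : H2 A)
    (hx : ∀ q, resH2 A (P q : Subgroup G) x = 0) : x = 0 := by
  -- `#G • x = 0`, from the trivial subgroup
  have hbot : Nat.card G • x = 0 := by
    have h := hRC ⊥ x (by
      haveI : Subsingleton (H2 (res (⊥ : Subgroup G).subtype A)) :=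
        subsingleton_H2_of_subsingleton _
      exact Subsingleton.elim _ _)
    rwa [Subgroup.index_bot] at h
  have hdvd : addOrderOf x ∣ Nat.card G := addOrderOf_dvd_of_nsmul_eq_zero hbot
  rw [← AddMonoid.addOrderOf_eq_one_iff]
  by_contra hne
  obtain ⟨r, hr, hrm⟩ := Nat.exists_prime_and_dvd hne
  have hrmem : r ∈ (Nat.card G).primeFactors :=
    Nat.mem_primeFactors.2 ⟨hr, hrm.trans hdvd, Nat.card_pos.ne'⟩
  have h1 : addOrderOf x ∣ (P ⟨r, hrmem⟩ : Subgroup G).index :=
    addOrderOf_dvd_of_nsmul_eq_zero (hRC _ x (hx ⟨r, hrmem⟩))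
  haveI : Fact r.Prime := ⟨hr⟩
  exact (P ⟨r, hrmem⟩).not_dvd_index (hrm.trans h1)

/-- The order bound for arbitrary finite groups, given restriction–corestriction:
`#H²(G, A) ∣ #G`. -/
theorem finite_and_card_H2_dvd_card (hC : DevissageClass C) {G : Type u} [Group G] [Finite G]
    (A : Rep k G) (hA : C G A) (hRC : ResCorStatement A) :
    Finite (H2 A) ∧ Nat.card (H2 A) ∣ Nat.card G := by
  classical
  have hprime : ∀ q : (Nat.card G).primeFactors, (q : ℕ).Prime :=
    fun q => Nat.prime_of_mem_primeFactors q.2
  let P : ∀ q : (Nat.card G).primeFactors, Sylow (q : ℕ) G := fun _ => default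
  -- the Sylow pieces
  have hpiece : ∀ q : (Nat.card G).primeFactors,
      Finite (H2 (res (P q : Subgroup G).subtype A)) ∧
        Nat.card (H2 (res (P q : Subgroup G).subtype A)) ∣
          (q : ℕ) ^ (Nat.card G).factorization q := by
    intro q
    haveI : Fact (q : ℕ).Prime := ⟨hprime q⟩
    exact finite_and_card_H2_dvd_of_card_eq_pow hC (q : ℕ) _ (P q : Subgroup G)
      (res (P q : Subgroup G).subtype A) (hC.res A _ hA) (P q).card_eq_multiplicity
  haveI : ∀ q, Finite (H2 (res (P q : Subgroup G).subtype A)) := fun q => (hpiece q).1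
  -- the product of the restriction maps is injective
  let Φ : H2 A →+ ∀ q : (Nat.card G).primeFactors, H2 (res (P q : Subgroup G).subtype A) :=
    AddMonoidHom.pi fun q => resH2 A (P q : Subgroup G)
  have hΦ : Function.Injective Φ := by
    rw [injective_iff_map_eq_zero]
    intro x hx
    exact eq_zero_of_resH2_sylow_eq_zero A hRC P x fun q => congrFun hx q
  haveI : Finite (H2 A) := Finite.of_injective Φ hΦ
  refine ⟨inferInstance, ?_⟩
  calc Nat.card (H2 A)
      ∣ Nat.card (∀ q : (Nat.card G).primeFactors, H2 (res (P q : Subgroup G).subtype A)) :=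
        AddSubgroup.card_dvd_of_injective Φ hΦ
    _ = ∏ q : (Nat.card G).primeFactors, Nat.card (H2 (res (P q : Subgroup G).subtype A)) :=
        Nat.card_pi
    _ ∣ ∏ q : (Nat.card G).primeFactors, (q : ℕ) ^ (Nat.card G).factorization q :=
        Finset.prod_dvd_prod_of_dvd _ _ fun q _ => (hpiece q).2
    _ = Nat.card G := by
        rw [Finset.prod_coe_sort (Nat.card G).primeFactors
          (fun q => q ^ (Nat.card G).factorization q),
          ← Nat.prod_factorization_eq_prod_primeFactors,
          Nat.prod_factorization_pow_eq_self Nat.card_pos.ne']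

end Fermat.Agent.S55.Coh.Ugly
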