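/-
S55 / cohomology toolbox — glue: helper83's abstract ugly lemma (`Coh/Ugly.lean`) made
unconditional with helper39's restriction–corestriction (`Tate/ResCor.lean`).

`resCorStatement A : Ugly.ResCorStatement A` for every `A : Rep k G`, hence
`#H²(G, A) ∣ #G` for every finite group `G` and every dévissage class.
-/
import Fermat.Agent.S55.Coh.Ugly
import Fermat.Agent.S55.Tate.ResCor

set_option autoImplicit false

namespace Fermat.Agent.S55.Coh.UglyResCor

open groupCohomology CategoryTheory Fermat.Agent.S55.Coh.Ugly Fermat.Agent.S55.Tate.ResCor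

universe u

variable {k : Type u} [CommRing k]

/-- Restriction–corestriction in degree 2 holds for every representation. -/
theorem resCorStatement {G : Type u} [Group G] (A : Rep k G) : ResCorStatement A := by
  intro S x hx
  by_cases hS : S.FiniteIndex
  · exact index_smul_eq_zero_of_res_eq_zero₂ A S x hx
  · have h0 : S.index = 0 := by
      by_contra h
      exact hS ⟨h⟩
    rw [h0, zero_smul]

/-- A class of `H²(G, A)` (`G` finite) which dies on a Sylow `q`-subgroup for every prime `q`
dividing `#G` is zero. -/
theorem eq_zero_of_resH2_sylow_eq_zero {G : Type u} [Group G] [Finite G] (A : Rep k G)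
    (P : ∀ q : (Nat.card G).primeFactors, Sylow (q : ℕ) G) (x : H2 A)
    (hx : ∀ q, resH2 A (P q : Subgroup G) x = 0) : x = 0 :=
  Ugly.eq_zero_of_resH2_sylow_eq_zero A (resCorStatement A) P x hx

/-- **The ugly lemma for arbitrary finite groups**, unconditional: for a dévissage class `C`
(closed under restriction, `H¹ = 0` on subgroups, prime layers have `#H² ∣ p`),
`#H²(G, A) ∣ #G`. -/
theorem finite_and_card_H2_dvd_card {C : ∀ (G : Type u) [Group G], Rep k G → Prop}
    (hC : DevissageClass C) {G : Type u} [Group G] [Finite G] (A : Rep k G) (hA : C G A) :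
    Finite (H2 A) ∧ Nat.card (H2 A) ∣ Nat.card G :=
  Ugly.finite_and_card_H2_dvd_card hC A hA (resCorStatement A)

end Fermat.Agent.S55.Coh.UglyResCor
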